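/-
S41, block (R2), "Lemma X": a homomorphism `φ : Γ₀(N) → A` whose restriction to `Γ(M)` (`N ∣ M`)
is invariant under conjugation by `SL(2, ℤ)` is an Eisenstein eigenvector of `T_l`, up to the
restriction of a homomorphism defined on all of `SL(2, ℤ)`, for every prime `l ∤ M` which is a
square modulo `M`:

  `T_l φ = (l + 1) • φ + τ|Γ₀(N)`,   `τ : SL(2, ℤ) → A` a homomorphism.

Everything happens inside `SL(2, ℤ)`, in the `CosetSystem` language of `S16/HeckeHom`.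
-/
import Mathlib
import Fermat.Agent.S16.HeckeHom

set_option autoImplicit false

namespace Fermat.Agent.S41.Ihara

open scoped MatrixGroups
open Matrix CongruenceSubgroup
open Fermat.Agent.S16.HeckeHom

noncomputable section

/-! ### Extension by zero of a homomorphism on `Γ₀(N)` -/

section Ext0

variable {N : ℕ} {A : Type*} [AddCommGroup A]

/-- Extension by zero to `SL(2, ℤ)` of a homomorphism on `Γ₀(N)`. -/
def ext0 (φ : Additive (Gamma0 N) →+ A) (x : SL(2, ℤ)) : A :=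
  open Classical in if h : x ∈ Gamma0 N then φ (Additive.ofMul ⟨x, h⟩) else 0

theorem ext0_of_mem (φ : Additive (Gamma0 N) →+ A) {x : SL(2, ℤ)} (h : x ∈ Gamma0 N) :
    ext0 φ x = φ (Additive.ofMul ⟨x, h⟩) := by
  unfold ext0
  rw [dif_pos h]

theorem ext0_coe (φ : Additive (Gamma0 N) →+ A) (γ : Gamma0 N) :
    ext0 φ (γ : SL(2, ℤ)) = φ (Additive.ofMul γ) := by
  rw [ext0_of_mem φ γ.2]

theorem ext0_mul (φ : Additive (Gamma0 N) →+ A) {x y : SL(2, ℤ)} (hx : x ∈ Gamma0 N)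
    (hy : y ∈ Gamma0 N) : ext0 φ (x * y) = ext0 φ x + ext0 φ y := by
  rw [ext0_of_mem φ hx, ext0_of_mem φ hy, ext0_of_mem φ (mul_mem hx hy), ← map_add]
  rfl

theorem ext0_one (φ : Additive (Gamma0 N) →+ A) : ext0 φ 1 = 0 := by
  rw [ext0_of_mem φ (one_mem _)]
  exact map_zero φ

theorem ext0_inv (φ : Additive (Gamma0 N) →+ A) {x : SL(2, ℤ)} (hx : x ∈ Gamma0 N) :
    ext0 φ x⁻¹ = -ext0 φ x := by
  have h := ext0_mul φ hx (inv_mem hx)
  rw [mul_inv_cancel, ext0_one] at h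
  exact eq_neg_of_add_eq_zero_right h.symm

end Ext0

/-! ### The level-one coset system and comparison with level `N` -/

section LevelOne

variable (l : ℕ) [hl : Fact l.Prime]

theorem not_dvd_one_of_prime : ¬ l ∣ 1 := by
  intro h
  exact hl.out.one_lt.ne' (Nat.dvd_one.mp h)

theorem mem_Gamma0_one (g : SL(2, ℤ)) : g ∈ Gamma0 1 := by
  rw [Gamma0_mem]
  exact Subsingleton.elim _ _

/-- An element of `SL(2, ℤ)` as an element of `Γ₀(1)`. -/
def top1 (g : SL(2, ℤ)) : Gamma0 1 := ⟨g, mem_Gamma0_one g⟩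

theorem top1_mul (g h : SL(2, ℤ)) : top1 (g * h) = top1 g * top1 h := rfl

theorem mat_top1 (g : SL(2, ℤ)) : mat (top1 g) = (g : Matrix (Fin 2) (Fin 2) ℤ) := rfl

/-- The level one coset system of `T_l`. -/
def C1 : CosetSystem (Gamma0 1) (Option (Fin l)) := cosetT 1 l (not_dvd_one_of_prime l)

/-- The permutation of the index set induced by `g ∈ SL(2, ℤ)`. -/
def sg (g : SL(2, ℤ)) (i : Option (Fin l)) : Option (Fin l) := (C1 l).perm (top1 g) i

/-- The `SL(2, ℤ)`-factor in `al i * g = Fg g i * al (sg g i)`. -/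
def Fg (g : SL(2, ℤ)) (i : Option (Fin l)) : SL(2, ℤ) := ((C1 l).fac (top1 g) i : SL(2, ℤ))

theorem Fg_spec (g : SL(2, ℤ)) (i : Option (Fin l)) :
    alT l i * (g : Matrix (Fin 2) (Fin 2) ℤ) =
      (Fg l g i : Matrix (Fin 2) (Fin 2) ℤ) * alT l (sg l g i) :=
  (C1 l).spec (top1 g) i

theorem sg_mul (g h : SL(2, ℤ)) (i : Option (Fin l)) : sg l (g * h) i = sg l h (sg l g i) := by
  unfold sg
  rw [top1_mul, (C1 l).perm_mul]

theorem Fg_mul (g h : SL(2, ℤ)) (i : Option (Fin l)) :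
    Fg l (g * h) i = Fg l g i * Fg l h (sg l g i) := by
  unfold Fg sg
  rw [top1_mul, (C1 l).fac_mul]
  rfl

/-- `sg g` as an equivalence. -/
def sgEquiv (g : SL(2, ℤ)) : Option (Fin l) ≃ Option (Fin l) := (C1 l).permEquiv (top1 g)

@[simp] theorem sgEquiv_apply (g : SL(2, ℤ)) (i : Option (Fin l)) :
    sgEquiv l g i = sg l g i := rfl

/-- Comparison of the level `N` data with the level one data. -/
theorem perm_fac_eq (N : ℕ) (hlN : ¬ l ∣ N) (γ : Gamma0 N) (i : Option (Fin l)) :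
    (cosetT N l hlN).perm γ i = sg l (γ : SL(2, ℤ)) i ∧
      ((cosetT N l hlN).fac γ i : SL(2, ℤ)) = Fg l (γ : SL(2, ℤ)) i := by
  have h := (cosetT N l hlN).spec γ i
  have h' : (C1 l).al i * mat (top1 (γ : SL(2, ℤ))) =
      mat (top1 (((cosetT N l hlN).fac γ i : Gamma0 N) : SL(2, ℤ))) *
        (C1 l).al ((cosetT N l hlN).perm γ i) := h
  obtain ⟨h1, h2⟩ := (C1 l).eq_of_spec h'
  refine ⟨h1, ?_⟩
  have := congrArg (fun x : Gamma0 1 => (x : SL(2, ℤ))) h2
  exact this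

end LevelOne

/-! ### The lifts `c i` of `t⁻¹ • al i` modulo `M` -/

section Lift

variable (M l : ℕ) (t t' k : ℤ)

/-- Reduction of integer matrices modulo `M`. -/
def red : Matrix (Fin 2) (Fin 2) ℤ →+* Matrix (Fin 2) (Fin 2) (ZMod M) :=
  (Int.castRingHom (ZMod M)).mapMatrix

theorem red_apply (X : Matrix (Fin 2) (Fin 2) ℤ) (i j : Fin 2) :
    red M X i j = ((X i j : ℤ) : ZMod M) := rfl

/-- The element `h = !![t', M; M k, t]`, congruent to `diag(1/t, t)` modulo `M`. -/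
def hEl (htt : t' * t - (M : ℤ) * ((M : ℤ) * k) = 1) : SL(2, ℤ) :=
  mkSL t' M ((M : ℤ) * k) t htt

/-- The translation `!![1, j; 0, 1]`. -/
def uEl (j : ℤ) : SL(2, ℤ) := mkSL 1 j 0 1 (by ring)

/-- The lifts: `c none = h⁻¹`, `c (some j) = h * u(j)`. -/
def cEl (htt : t' * t - (M : ℤ) * ((M : ℤ) * k) = 1) : Option (Fin l) → SL(2, ℤ)
  | none => (hEl M t t' k htt)⁻¹
  | some j => hEl M t t' k htt * uEl (((j : ℕ) : ℤ))

theorem coe_hEl (htt : t' * t - (M : ℤ) * ((M : ℤ) * k) = 1) :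
    ((hEl M t t' k htt : SL(2, ℤ)) : Matrix (Fin 2) (Fin 2) ℤ) = !![t', (M : ℤ); (M : ℤ) * k, t] :=
  rfl

theorem coe_uEl (j : ℤ) : ((uEl j : SL(2, ℤ)) : Matrix (Fin 2) (Fin 2) ℤ) = !![1, j; 0, 1] := rfl

theorem cast_M_zero : (((M : ℕ) : ℤ) : ZMod M) = 0 := by
  simp

theorem key_c (htt : t' * t - (M : ℤ) * ((M : ℤ) * k) = 1)
    (ht2 : ((t : ℤ) : ZMod M) ^ 2 = (l : ZMod M)) (i : Option (Fin l)) :
    ((t : ℤ) : ZMod M) • red M ((cEl M l t t' k htt i : SL(2, ℤ)) : Matrix (Fin 2) (Fin 2) ℤ) =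
      red M (alT l i) := by
  have hM : (((M : ℕ) : ℤ) : ZMod M) = 0 := cast_M_zero M
  have htt' : ((t : ℤ) : ZMod M) * ((t' : ℤ) : ZMod M) = 1 := by
    have h := congrArg (fun x : ℤ => (x : ZMod M)) htt
    simp only [Int.cast_sub, Int.cast_mul, Int.cast_one, hM, zero_mul, sub_zero] at h
    rw [mul_comm]; exact h
  have ht2' : ((t : ℤ) : ZMod M) * ((t : ℤ) : ZMod M) = (l : ZMod M) := by rw [← ht2, sq]
  cases i with
  | none =>
    have hc : ((cEl M l t t' k htt none : SL(2, ℤ)) : Matrix (Fin 2) (Fin 2) ℤ) =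
        !![t, -(M : ℤ); -((M : ℤ) * k), t'] := by
      show (((hEl M t t' k htt)⁻¹ : SL(2, ℤ)) : Matrix (Fin 2) (Fin 2) ℤ) = _
      rw [Matrix.SpecialLinearGroup.coe_inv, coe_hEl, Matrix.adjugate_fin_two_of]
    rw [hc]
    ext a b
    fin_cases a <;> fin_cases b <;>
      simp [red_apply, alT, Matrix.smul_apply, htt', ht2']
  | some j =>
    have hc : ((cEl M l t t' k htt (some j) : SL(2, ℤ)) : Matrix (Fin 2) (Fin 2) ℤ) =
        !![t', t' * ((j : ℕ) : ℤ) + (M : ℤ); (M : ℤ) * k, (M : ℤ) * k * ((j : ℕ) : ℤ) + t] := by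
      show ((hEl M t t' k htt * uEl (((j : ℕ) : ℤ)) : SL(2, ℤ)) : Matrix (Fin 2) (Fin 2) ℤ) = _
      rw [Matrix.SpecialLinearGroup.coe_mul, coe_hEl, coe_uEl]
      ext a b
      fin_cases a <;> fin_cases b <;> simp [Matrix.mul_apply, Fin.sum_univ_two]
    rw [hc]
    ext a b
    fin_cases a <;> fin_cases b <;>
      simp [red_apply, alT, Matrix.smul_apply, htt', ht2', ← mul_assoc]

end Lift

/-! ### The defect `D g i ∈ Γ(M)` -/

section Defect

variable (M l : ℕ) [hl : Fact l.Prime] (t t' k : ℤ)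
  (htt : t' * t - (M : ℤ) * ((M : ℤ) * k) = 1)

/-- The defect `D g i = F(g,i) * c (s_g i) * g⁻¹ * (c i)⁻¹`. -/
def Dg (g : SL(2, ℤ)) (i : Option (Fin l)) : SL(2, ℤ) :=
  Fg l g i * cEl M l t t' k htt (sg l g i) * g⁻¹ * (cEl M l t t' k htt i)⁻¹

theorem Fg_eq_Dg (g : SL(2, ℤ)) (i : Option (Fin l)) :
    Fg l g i = Dg M l t t' k htt g i * cEl M l t t' k htt i * g *
      (cEl M l t t' k htt (sg l g i))⁻¹ := by
  unfold Dg
  group

theorem Dg_mul (g h : SL(2, ℤ)) (i : Option (Fin l)) :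
    Dg M l t t' k htt (g * h) i =
      (Fg l g i * Dg M l t t' k htt h (sg l g i) * (Fg l g i)⁻¹) * Dg M l t t' k htt g i := by
  unfold Dg
  rw [Fg_mul, sg_mul]
  group

omit hl in
theorem isUnit_t (hlM : Nat.Coprime l M) (ht2 : ((t : ℤ) : ZMod M) ^ 2 = (l : ZMod M)) :
    IsUnit ((t : ℤ) : ZMod M) := by
  have h1 : IsUnit ((l : ℕ) : ZMod M) := (ZMod.isUnit_iff_coprime l M).mpr hlM
  rw [← ht2] at h1
  exact (isUnit_pow_iff two_ne_zero).mp h1

theorem Dg_mem (hlM : Nat.Coprime l M) (ht2 : ((t : ℤ) : ZMod M) ^ 2 = (l : ZMod M))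
    (g : SL(2, ℤ)) (i : Option (Fin l)) : Dg M l t t' k htt g i ∈ Gamma M := by
  rw [Gamma_mem']
  have hu := isUnit_t M l t hlM ht2
  -- the matrix identity modulo `M`
  have hmat : red M ((Fg l g i : SL(2, ℤ)) : Matrix (Fin 2) (Fin 2) ℤ) *
      red M ((cEl M l t t' k htt (sg l g i) : SL(2, ℤ)) : Matrix (Fin 2) (Fin 2) ℤ) =
      red M ((cEl M l t t' k htt i : SL(2, ℤ)) : Matrix (Fin 2) (Fin 2) ℤ) *
        red M ((g : SL(2, ℤ)) : Matrix (Fin 2) (Fin 2) ℤ) := by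
    have h := congrArg (red M) (Fg_spec l g i)
    rw [map_mul, map_mul, ← key_c M l t t' k htt ht2 i, ← key_c M l t t' k htt ht2 (sg l g i),
      Matrix.smul_mul, Matrix.mul_smul] at h
    exact (hu.smul_left_cancel.mp h).symm
  -- transfer to `SL(2, ZMod M)`
  have hSL : Matrix.SpecialLinearGroup.map (Int.castRingHom (ZMod M)) (Fg l g i) *
      Matrix.SpecialLinearGroup.map (Int.castRingHom (ZMod M))
        (cEl M l t t' k htt (sg l g i)) =
      Matrix.SpecialLinearGroup.map (Int.castRingHom (ZMod M)) (cEl M l t t' k htt i) *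
        Matrix.SpecialLinearGroup.map (Int.castRingHom (ZMod M)) g := by
    apply Subtype.ext
    exact hmat
  unfold Dg
  rw [map_mul, map_mul, map_mul, map_inv, map_inv, hSL]
  group

end Defect

/-! ### The main theorem -/

section Main

variable {N : ℕ} (M l : ℕ) [hl : Fact l.Prime] {A : Type*} [AddCommGroup A] (t t' k : ℤ)
  (htt : t' * t - (M : ℤ) * ((M : ℤ) * k) = 1)

theorem Gamma_le_Gamma0 (hNM : N ∣ M) : Gamma M ≤ Gamma0 N := by
  intro γ hγ
  rw [Gamma_mem] at hγ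
  rw [Gamma0_mem]
  have h1 : ((M : ℕ) : ℤ) ∣ (γ 1 0 : ℤ) := (ZMod.intCast_zmod_eq_zero_iff_dvd _ M).mp hγ.2.2.1
  have h2 : ((N : ℕ) : ℤ) ∣ (γ 1 0 : ℤ) := dvd_trans (by exact_mod_cast hNM) h1
  exact (ZMod.intCast_zmod_eq_zero_iff_dvd _ N).mpr h2

omit hl in
theorem hEl_mem (hNM : N ∣ M) : hEl M t t' k htt ∈ Gamma0 N := by
  rw [Gamma0_mem]
  show ((((M : ℤ) * k : ℤ)) : ZMod N) = 0
  rw [ZMod.intCast_zmod_eq_zero_iff_dvd]
  exact Dvd.dvd.mul_right (by exact_mod_cast hNM) k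

theorem uEl_mem (j : ℤ) : uEl j ∈ Gamma0 N := by
  rw [Gamma0_mem]
  show (((0 : ℤ)) : ZMod N) = 0
  simp

omit hl in
theorem cEl_mem (hNM : N ∣ M) (i : Option (Fin l)) : cEl M l t t' k htt i ∈ Gamma0 N := by
  cases i with
  | none => exact inv_mem (hEl_mem M t t' k htt hNM)
  | some j => exact mul_mem (hEl_mem M t t' k htt hNM) (uEl_mem _)

/-- The correction term `τ`, as a function on `SL(2, ℤ)`. -/
def tauFun (φ : Additive (Gamma0 N) →+ A) (g : SL(2, ℤ)) : A :=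
  ∑ i : Option (Fin l), ext0 φ (Dg M l t t' k htt g i)

theorem tauFun_mul (hNM : N ∣ M) (hlM : Nat.Coprime l M)
    (ht2 : ((t : ℤ) : ZMod M) ^ 2 = (l : ZMod M)) (φ : Additive (Gamma0 N) →+ A)
    (hinv : ∀ (g γ : SL(2, ℤ)), γ ∈ Gamma M → ext0 φ (g * γ * g⁻¹) = ext0 φ γ)
    (g h : SL(2, ℤ)) :
    tauFun M l t t' k htt φ (g * h) =
      tauFun M l t t' k htt φ g + tauFun M l t t' k htt φ h := by
  unfold tauFun
  have hD := Dg_mem M l t t' k htt hlM ht2
  have hle := Gamma_le_Gamma0 (N := N) M hNM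
  have key : ∀ i : Option (Fin l), ext0 φ (Dg M l t t' k htt (g * h) i) =
      ext0 φ (Dg M l t t' k htt h (sg l g i)) + ext0 φ (Dg M l t t' k htt g i) := by
    intro i
    rw [Dg_mul]
    have hconj : Fg l g i * Dg M l t t' k htt h (sg l g i) * (Fg l g i)⁻¹ ∈ Gamma M :=
      (Gamma_normal M).conj_mem _ (hD h (sg l g i)) _
    rw [ext0_mul φ (hle hconj) (hle (hD g i)), hinv _ _ (hD h (sg l g i))]
  simp only [key, Finset.sum_add_distrib]
  rw [add_comm]
  congr 1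
  exact (sgEquiv l g).sum_comp (fun j => ext0 φ (Dg M l t t' k htt h j))

/-- The correction term `τ`, as a homomorphism on `SL(2, ℤ)`. -/
def tauHom (hNM : N ∣ M) (hlM : Nat.Coprime l M)
    (ht2 : ((t : ℤ) : ZMod M) ^ 2 = (l : ZMod M)) (φ : Additive (Gamma0 N) →+ A)
    (hinv : ∀ (g γ : SL(2, ℤ)), γ ∈ Gamma M → ext0 φ (g * γ * g⁻¹) = ext0 φ γ) :
    Additive SL(2, ℤ) →+ A :=
  AddMonoidHom.mk' (fun g => tauFun M l t t' k htt φ (Additive.toMul g)) (fun g h =>
    tauFun_mul M l t t' k htt hNM hlM ht2 φ hinv (Additive.toMul g) (Additive.toMul h))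

theorem tauHom_apply (hNM : N ∣ M) (hlM : Nat.Coprime l M)
    (ht2 : ((t : ℤ) : ZMod M) ^ 2 = (l : ZMod M)) (φ : Additive (Gamma0 N) →+ A)
    (hinv : ∀ (g γ : SL(2, ℤ)), γ ∈ Gamma M → ext0 φ (g * γ * g⁻¹) = ext0 φ γ) (g : SL(2, ℤ)) :
    tauHom M l t t' k htt hNM hlM ht2 φ hinv (Additive.ofMul g) = tauFun M l t t' k htt φ g :=
  rfl

/-- **Lemma X**, explicit form. -/
theorem heckeHom_eq_add_tau (hNM : N ∣ M) (hlN : ¬ l ∣ N) (hlM : Nat.Coprime l M)
    (ht2 : ((t : ℤ) : ZMod M) ^ 2 = (l : ZMod M)) (φ : Additive (Gamma0 N) →+ A)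
    (γ : Gamma0 N) :
    (cosetT N l hlN).heckeHom φ (Additive.ofMul γ) =
      (l + 1) • φ (Additive.ofMul γ) + tauFun M l t t' k htt φ (γ : SL(2, ℤ)) := by
  rw [CosetSystem.heckeHom_apply]
  have hD := Dg_mem M l t t' k htt hlM ht2
  have hle := Gamma_le_Gamma0 (N := N) M hNM
  have hc := cEl_mem (N := N) M l t t' k htt hNM
  have key : ∀ i : Option (Fin l),
      φ (Additive.ofMul ((cosetT N l hlN).fac γ i)) =
        ext0 φ (Dg M l t t' k htt (γ : SL(2, ℤ)) i) + φ (Additive.ofMul γ) +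
          (ext0 φ (cEl M l t t' k htt i) -
            ext0 φ (cEl M l t t' k htt (sg l (γ : SL(2, ℤ)) i))) := by
    intro i
    rw [← ext0_coe φ ((cosetT N l hlN).fac γ i), (perm_fac_eq l N hlN γ i).2,
      Fg_eq_Dg M l t t' k htt]
    rw [ext0_mul φ (mul_mem (mul_mem (hle (hD _ i)) (hc i)) γ.2) (inv_mem (hc _)),
      ext0_mul φ (mul_mem (hle (hD _ i)) (hc i)) γ.2,
      ext0_mul φ (hle (hD _ i)) (hc i), ext0_inv φ (hc _), ext0_coe]
    abel
  simp only [key, Finset.sum_add_distrib, Finset.sum_sub_distrib, Finset.sum_const,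
    Finset.card_univ, Fintype.card_option, Fintype.card_fin]
  have hperm : ∑ i, ext0 φ (cEl M l t t' k htt (sg l (γ : SL(2, ℤ)) i)) =
      ∑ i, ext0 φ (cEl M l t t' k htt i) :=
    (sgEquiv l (γ : SL(2, ℤ))).sum_comp (fun i => ext0 φ (cEl M l t t' k htt i))
  rw [hperm, sub_self, add_zero]
  unfold tauFun
  abel

end Main

/-! ### Packaging -/

section Packaging

variable {N : ℕ} {M l : ℕ} [hl : Fact l.Prime] {A : Type*} [AddCommGroup A]

omit hl in
/-- A square root `t` of `l` modulo `M` (with `l` prime to `M`) has an inverse modulo `M ^ 2`. -/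
theorem exists_lift (hlM : Nat.Coprime l M) (t : ℤ)
    (ht2 : ((t : ℤ) : ZMod M) ^ 2 = (l : ZMod M)) :
    ∃ t' k : ℤ, t' * t - (M : ℤ) * ((M : ℤ) * k) = 1 := by
  have hu := isUnit_t M l t hlM ht2
  have hcop : IsCoprime (M : ℤ) t := (ZMod.coe_int_isUnit_iff_isCoprime t M).mp hu
  have hcop2 : IsCoprime ((M : ℤ) * (M : ℤ)) t := hcop.mul_left hcop
  obtain ⟨a, b, hab⟩ := hcop2
  refine ⟨b, -a, ?_⟩
  linear_combination hab

/-- Homomorphisms `SL(2, ℤ) → A` vanish as soon as they vanish on `T` and `A` has no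
`2`-torsion. -/
theorem hom_eq_zero_of_T (τ : Additive SL(2, ℤ) →+ A) (h2 : ∀ a : A, (2 : ℕ) • a = 0 → a = 0)
    (hT : τ (Additive.ofMul ModularGroup.T) = 0) : τ = 0 := by
  have hS4 : (ModularGroup.S : SL(2, ℤ)) ^ 4 = 1 := by decide
  have hS : τ (Additive.ofMul ModularGroup.S) = 0 := by
    have h := congrArg (fun x => τ (Additive.ofMul x)) hS4
    simp only [ofMul_pow, map_nsmul, ofMul_one, map_zero] at h
    have h' : (2 : ℕ) • ((2 : ℕ) • τ (Additive.ofMul ModularGroup.S)) = 0 := by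
      rw [← mul_nsmul]; exact h
    exact h2 _ (h2 _ h')
  have hker : ∀ g : SL(2, ℤ), τ (Additive.ofMul g) = 0 := by
    intro g
    have hg : g ∈ Subgroup.closure ({ModularGroup.S, ModularGroup.T} : Set SL(2, ℤ)) := by
      rw [SpecialLinearGroup.SL2Z_generators]; exact Subgroup.mem_top g
    induction hg using Subgroup.closure_induction with
    | mem x hx =>
      rcases hx with rfl | rfl
      · exact hS
      · exact hT
    | one => exact map_zero τ
    | mul x y _ _ hx hy =>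
      rw [ofMul_mul, map_add, hx, hy, add_zero]
    | inv x _ hx =>
      rw [ofMul_inv, map_neg, hx, neg_zero]
  refine AddMonoidHom.ext fun g => ?_
  exact hker (Additive.toMul g)

/-- Homomorphisms `SL(2, ℤ) → A` vanish if `A` has no `12`-torsion. -/
theorem hom_eq_zero_of_twelve (τ : Additive SL(2, ℤ) →+ A)
    (h12 : ∀ a : A, (12 : ℕ) • a = 0 → a = 0) : τ = 0 := by
  have h2 : ∀ a : A, (2 : ℕ) • a = 0 → a = 0 := by
    intro a ha
    apply h12
    have : (12 : ℕ) • a = (6 : ℕ) • ((2 : ℕ) • a) := by rw [← mul_nsmul]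
    rw [this, ha, smul_zero]
  have hS4 : (ModularGroup.S : SL(2, ℤ)) ^ 4 = 1 := by decide
  have hST6 : (ModularGroup.S * ModularGroup.T : SL(2, ℤ)) ^ 6 = 1 := by decide
  have hS : τ (Additive.ofMul ModularGroup.S) = 0 := by
    have h := congrArg (fun x => τ (Additive.ofMul x)) hS4
    simp only [ofMul_pow, map_nsmul, ofMul_one, map_zero] at h
    apply h12
    have : (12 : ℕ) • τ (Additive.ofMul ModularGroup.S) =
        (3 : ℕ) • ((4 : ℕ) • τ (Additive.ofMul ModularGroup.S)) := by rw [← mul_nsmul]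
    rw [this, h, smul_zero]
  have hST : τ (Additive.ofMul (ModularGroup.S * ModularGroup.T)) = 0 := by
    have h := congrArg (fun x => τ (Additive.ofMul x)) hST6
    simp only [ofMul_pow, map_nsmul, ofMul_one, map_zero] at h
    apply h12
    have : (12 : ℕ) • τ (Additive.ofMul (ModularGroup.S * ModularGroup.T)) =
        (2 : ℕ) • ((6 : ℕ) • τ (Additive.ofMul (ModularGroup.S * ModularGroup.T))) := by
      rw [← mul_nsmul]
    rw [this, h, smul_zero]
  apply hom_eq_zero_of_T τ h2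
  rw [ofMul_mul, map_add, hS, zero_add] at hST
  exact hST

/-- **Lemma X.**  Let `N ∣ M`, let `φ : Γ₀(N) → A` be a homomorphism whose restriction to `Γ(M)`
is invariant under conjugation by `SL(2, ℤ)`, and let `l ∤ M` be a prime which is a square
modulo `M`.  Then `T_l φ = (l + 1) • φ + τ|Γ₀(N)` for a homomorphism `τ : SL(2, ℤ) → A`. -/
theorem exists_tau (hNM : N ∣ M) (hlN : ¬ l ∣ N) (hlM : Nat.Coprime l M) (t : ℤ)
    (ht2 : ((t : ℤ) : ZMod M) ^ 2 = (l : ZMod M)) (φ : Additive (Gamma0 N) →+ A)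
    (hinv : ∀ (g γ : SL(2, ℤ)) (hγ : γ ∈ Gamma M),
      φ (Additive.ofMul ⟨g * γ * g⁻¹,
          Gamma_le_Gamma0 M hNM ((Gamma_normal M).conj_mem γ hγ g)⟩) =
        φ (Additive.ofMul ⟨γ, Gamma_le_Gamma0 M hNM hγ⟩)) :
    ∃ τ : Additive SL(2, ℤ) →+ A, ∀ γ : Gamma0 N,
      (cosetT N l hlN).heckeHom φ (Additive.ofMul γ) =
        (l + 1) • φ (Additive.ofMul γ) + τ (Additive.ofMul (γ : SL(2, ℤ))) := by
  obtain ⟨t', k, htt⟩ := exists_lift hlM t ht2
  have hinv' : ∀ (g γ : SL(2, ℤ)), γ ∈ Gamma M → ext0 φ (g * γ * g⁻¹) = ext0 φ γ := by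
    intro g γ hγ
    rw [ext0_of_mem φ (Gamma_le_Gamma0 M hNM ((Gamma_normal M).conj_mem γ hγ g)),
      ext0_of_mem φ (Gamma_le_Gamma0 M hNM hγ)]
    exact hinv g γ hγ
  refine ⟨tauHom M l t t' k htt hNM hlM ht2 φ hinv', fun γ => ?_⟩
  rw [tauHom_apply]
  exact heckeHom_eq_add_tau M l t t' k htt hNM hlN hlM ht2 φ γ

/-- **Lemma X**, first corollary: if `A` has no `12`-torsion (e.g. `A = 𝔽_p`, `p ≥ 5`), then
`T_l φ = (l + 1) • φ`. -/
theorem heckeHom_eq_of_twelve (hNM : N ∣ M) (hlN : ¬ l ∣ N) (hlM : Nat.Coprime l M) (t : ℤ)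
    (ht2 : ((t : ℤ) : ZMod M) ^ 2 = (l : ZMod M)) (φ : Additive (Gamma0 N) →+ A)
    (hinv : ∀ (g γ : SL(2, ℤ)) (hγ : γ ∈ Gamma M),
      φ (Additive.ofMul ⟨g * γ * g⁻¹,
          Gamma_le_Gamma0 M hNM ((Gamma_normal M).conj_mem γ hγ g)⟩) =
        φ (Additive.ofMul ⟨γ, Gamma_le_Gamma0 M hNM hγ⟩))
    (h12 : ∀ a : A, (12 : ℕ) • a = 0 → a = 0) :
    (cosetT N l hlN).heckeHom φ = (l + 1) • φ := by
  obtain ⟨τ, hτ⟩ := exists_tau hNM hlN hlM t ht2 φ hinv
  have h0 := hom_eq_zero_of_twelve τ h12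
  refine AddMonoidHom.ext fun γ => ?_
  have := hτ (Additive.toMul γ)
  rw [h0, AddMonoidHom.zero_apply, add_zero] at this
  exact this

end Packaging

/-! ### The value of `T_l φ` on the translation `T` -/

section Translation

variable (N l : ℕ) [hl : Fact l.Prime] {A : Type*} [AddCommGroup A]

/-- The translation `!![1, n; 0, 1]` as an element of `Γ₀(N)`. -/
def TN (n : ℤ) : Gamma0 N := mkGamma0 N 1 n 0 1 (by ring) (dvd_zero _)

theorem mat_TN (n : ℤ) : mat (TN N n) = !![1, n; 0, 1] := rfl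

theorem TN_add (m n : ℤ) : TN N (m + n) = TN N m * TN N n := by
  apply mat_injective
  rw [mat_mul, mat_TN, mat_TN, mat_TN]
  ext a b
  fin_cases a <;> fin_cases b <;> simp [Matrix.mul_apply, Fin.sum_univ_two] <;> ring

theorem TN_zero : TN N 0 = 1 := by
  apply mat_injective
  rw [mat_TN, mat_one]
  ext a b
  fin_cases a <;> fin_cases b <;> simp

theorem phi_TN_nat (φ : Additive (Gamma0 N) →+ A) (n : ℕ) :
    φ (Additive.ofMul (TN N (n : ℤ))) = n • φ (Additive.ofMul (TN N 1)) := by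
  induction n with
  | zero =>
    rw [Nat.cast_zero, TN_zero, ofMul_one, map_zero, zero_smul]
  | succ n ih =>
    rw [Nat.cast_succ, TN_add, ofMul_mul, map_add, ih, succ_nsmul]

theorem coe_TN_one : ((TN N 1 : Gamma0 N) : SL(2, ℤ)) = ModularGroup.T := by
  apply Subtype.ext
  rfl

/-- `(T_l φ)(T) = (l + 1) • φ(T)`. -/
theorem heckeHom_TN (hlN : ¬ l ∣ N) (φ : Additive (Gamma0 N) →+ A) :
    (cosetT N l hlN).heckeHom φ (Additive.ofMul (TN N 1)) =
      (l + 1) • φ (Additive.ofMul (TN N 1)) := by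
  set C := cosetT N l hlN with hC
  rw [CosetSystem.heckeHom_apply, Fintype.sum_option]
  have hlpos : 0 < l := hl.out.pos
  -- the `none` term
  have hnone : C.fac (TN N 1) none = TN N (l : ℤ) := by
    have h : C.al none * mat (TN N 1) = mat (TN N (l : ℤ)) * C.al none := by
      rw [hC, cosetT_al, mat_TN, mat_TN]
      ext a b
      fin_cases a <;> fin_cases b <;> simp [alT, Matrix.mul_apply, Fin.sum_univ_two]
    exact (C.eq_of_spec h).2.symm
  -- the `some j` terms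
  have hsome : ∀ j : Fin l, C.fac (TN N 1) (some j) =
      if (j : ℕ) + 1 < l then 1 else TN N 1 := by
    intro j
    split_ifs with hj
    · have h : C.al (some j) * mat (TN N 1) =
          mat (1 : Gamma0 N) * C.al (some ⟨(j : ℕ) + 1, hj⟩) := by
        rw [hC, cosetT_al, mat_TN, mat_one, Matrix.one_mul]
        ext a b
        fin_cases a <;> fin_cases b <;> simp [alT, Matrix.mul_apply, Fin.sum_univ_two] <;> ring
      exact (C.eq_of_spec h).2.symm
    · have hj' : (j : ℕ) + 1 = l := by have := j.2; omega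
      have h : C.al (some j) * mat (TN N 1) =
          mat (TN N 1) * C.al (some ⟨0, hlpos⟩) := by
        rw [hC, cosetT_al, mat_TN]
        ext a b
        have hj'' : (((j : ℕ) : ℤ)) + 1 = (l : ℤ) := by exact_mod_cast hj'
        fin_cases a <;> fin_cases b <;>
          simp [alT, Matrix.mul_apply, Fin.sum_univ_two]
        linarith
      exact (C.eq_of_spec h).2.symm
  rw [hnone, phi_TN_nat]
  simp only [hsome]
  have hsum : ∑ j : Fin l, φ (Additive.ofMul (if (j : ℕ) + 1 < l then (1 : Gamma0 N)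
      else TN N 1)) = φ (Additive.ofMul (TN N 1)) := by
    rw [Finset.sum_eq_single (⟨l - 1, by omega⟩ : Fin l)]
    · have : ¬ (l - 1 + 1 < l) := by omega
      simp [this]
    · intro j _ hj
      have : (j : ℕ) + 1 < l := by
        have h1 := j.2
        have h2 : (j : ℕ) ≠ l - 1 := fun h => hj (Fin.ext h)
        omega
      simp [this]
    · intro h
      exact absurd (Finset.mem_univ _) h
  rw [hsum, succ_nsmul]

end Translation

section Packaging2

variable {N : ℕ} {M l : ℕ} [hl : Fact l.Prime] {A : Type*} [AddCommGroup A]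

/-- **Lemma X**, second corollary: if `A` has no `2`-torsion (e.g. `A = 𝔽_p`, `p` odd, or
`A = ℤ_p`), then `T_l φ = (l + 1) • φ`.  (The correction term `τ` always vanishes on the
translation `T`, because `(T_l φ)(T) = (l + 1) • φ(T)` for every `φ`.) -/
theorem heckeHom_eq_of_two (hNM : N ∣ M) (hlN : ¬ l ∣ N) (hlM : Nat.Coprime l M) (t : ℤ)
    (ht2 : ((t : ℤ) : ZMod M) ^ 2 = (l : ZMod M)) (φ : Additive (Gamma0 N) →+ A)
    (hinv : ∀ (g γ : SL(2, ℤ)) (hγ : γ ∈ Gamma M),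
      φ (Additive.ofMul ⟨g * γ * g⁻¹,
          Gamma_le_Gamma0 M hNM ((Gamma_normal M).conj_mem γ hγ g)⟩) =
        φ (Additive.ofMul ⟨γ, Gamma_le_Gamma0 M hNM hγ⟩))
    (h2 : ∀ a : A, (2 : ℕ) • a = 0 → a = 0) :
    (cosetT N l hlN).heckeHom φ = (l + 1) • φ := by
  obtain ⟨τ, hτ⟩ := exists_tau hNM hlN hlM t ht2 φ hinv
  have hτT : τ (Additive.ofMul ModularGroup.T) = 0 := by
    have h := hτ (TN N 1)
    rw [heckeHom_TN, coe_TN_one] at h
    exact (add_eq_left.mp h.symm)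
  have h0 := hom_eq_zero_of_T τ h2 hτT
  refine AddMonoidHom.ext fun γ => ?_
  have := hτ (Additive.toMul γ)
  rw [h0, AddMonoidHom.zero_apply, add_zero] at this
  exact this

end Packaging2

end

end Fermat.Agent.S41.Ihara
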