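/-
S41 volunteer leaf (R2, invariance assembly), file 1/2: **centrality in `SL₂(ℚ)` language**.

The bridge between
* `Fermat.Agent.S41.CSP` (`SL2 (Zq q)` = `SL(2, ℤ[1/q])` as a matrix group over the subring
  `Zq q ⊆ ℚ`; centrality of the congruence kernel `Adm.conj_invariant`, the unit hypothesis
  `unitHyp_Zq`, elementary generation `ElemGen.elemSubgroup_eq_top`), and
* `Fermat.Agent.S41.Amalgam.Groups` (`Gam q N = Γ₀(N)[1/q]` as a subgroup of `SL₂(ℚ)`).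

Main results: `centrality` (for `g γ : SL2 (Zq q)`) and `centralityQ` (for `g γ : SL₂(ℚ)` with
entries in `ℤ[1/q]`): a homomorphism `Φ : Γ₀(N)[1/q] → K` (`K` commutative) killing all
`SL(2, ℤ[1/q])`-conjugates of the `u(Nx)` satisfies `Φ (g γ g⁻¹) = Φ γ` for all
`g ∈ SL(2, ℤ[1/q])` and all `γ` in the principal congruence subgroup of level `N`.
-/
import Fermat.Agent.S41.Amalgam.Groups
import Fermat.Agent.S41.CSP.CentralityAbstract
import Fermat.Agent.S41.CSP.UnitHypothesis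
import Fermat.Agent.S41.CSP.ElemGen
import Fermat.Agent.S41.CSP.ZqModel

set_option autoImplicit false

namespace Fermat.Agent.S41.Ihara.CentralityQ

open Matrix Fermat.Agent.S41.CSP Fermat.Agent.S41.Amalgam.Groups

variable (q N : ℕ)

/-- helper10's `A q` and `Zq q` are the same subring of `ℚ`. -/
theorem A_eq_Zq : A q = Zq q := Subring.ext fun _ => Iff.rfl

/-- the embedding `SL(2, ℤ[1/q]) → SL₂(ℚ)` -/
def toQ : SL2 (Zq q) →* SL2Q := Matrix.SpecialLinearGroup.map (Zq q).subtype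

theorem toQ_apply (g : SL2 (Zq q)) (i j : Fin 2) : (toQ q g) i j = ((g.1 i j : Zq q) : ℚ) := rfl

theorem toQ_injective : Function.Injective (toQ q) := by
  intro g h hgh
  apply Subtype.ext
  ext i j
  have := congrArg (fun x : SL2Q => x i j) hgh
  simpa [toQ_apply] using this

theorem toQ_entry_mem (g : SL2 (Zq q)) (i j : Fin 2) : (toQ q g) i j ∈ A q := (g.1 i j).2

/-- an element of `SL₂(ℚ)` with entries in `ℤ[1/q]` comes from `SL(2, ℤ[1/q])` -/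
def liftZq (g : SL2Q) (h : ∀ i j, g i j ∈ A q) : SL2 (Zq q) :=
  ⟨Matrix.of fun i j => (⟨g i j, h i j⟩ : Zq q), by
    rw [Matrix.det_fin_two]
    apply Subtype.ext
    have := Amalgam.Groups.det_eq g
    simpa using this⟩

theorem liftZq_apply (g : SL2Q) (h : ∀ i j, g i j ∈ A q) (i j : Fin 2) :
    (((liftZq q g h).1 i j : Zq q) : ℚ) = g i j := rfl

theorem toQ_liftZq (g : SL2Q) (h : ∀ i j, g i j ∈ A q) : toQ q (liftZq q g h) = g := by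
  apply Subtype.ext
  ext i j
  rfl

/-- divisibility by `N` in `ℤ[1/q]`, read in `ℚ` -/
theorem dvd_iff (x : Zq q) : ((N : ℕ) : Zq q) ∣ x ↔ ∃ y ∈ A q, (x : ℚ) = N * y := by
  constructor
  · rintro ⟨y, rfl⟩
    exact ⟨y, y.2, by simp⟩
  · rintro ⟨y, hy, hxy⟩
    exact ⟨⟨y, hy⟩, Subtype.ext (by simpa using hxy)⟩

theorem toQ_mem_Gam {g : SL2 (Zq q)} (hg : ((N : ℕ) : Zq q) ∣ g.1 1 0) : toQ q g ∈ Gam q N := by
  refine ⟨toQ_entry_mem q g, ?_⟩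
  obtain ⟨y, hy, h⟩ := (dvd_iff q N _).1 hg
  exact ⟨y, hy, h⟩

theorem toQ_mem_Gam_of_inGam {γ : SL2 (Zq q)} (hγ : InGam ((N : ℕ) : Zq q) γ) :
    toQ q γ ∈ Gam q N :=
  toQ_mem_Gam q N hγ.2.2.1

/-- the principal congruence subgroup of level `N` of `SL(2, ℤ[1/q])`, in `SL₂(ℚ)` language -/
def PrincQ (γ : SL2Q) : Prop :=
  ∃ a b c d : ℚ, a ∈ A q ∧ b ∈ A q ∧ c ∈ A q ∧ d ∈ A q ∧
    γ 0 0 = 1 + N * a ∧ γ 0 1 = N * b ∧ γ 1 0 = N * c ∧ γ 1 1 = 1 + N * d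

variable {q N}

theorem PrincQ.entry_mem {γ : SL2Q} (hγ : PrincQ q N γ) : ∀ i j, γ i j ∈ A q := by
  obtain ⟨a, b, c, d, ha, hb, hc, hd, h00, h01, h10, h11⟩ := hγ
  rw [forall_fin2, h00, h01, h10, h11]
  exact ⟨(A q).add_mem (A q).one_mem ((A q).mul_mem (nat_mem_A q N) ha),
    (A q).mul_mem (nat_mem_A q N) hb, (A q).mul_mem (nat_mem_A q N) hc,
    (A q).add_mem (A q).one_mem ((A q).mul_mem (nat_mem_A q N) hd)⟩

theorem PrincQ.mem_Gam {γ : SL2Q} (hγ : PrincQ q N γ) : γ ∈ Gam q N := by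
  refine ⟨hγ.entry_mem, ?_⟩
  obtain ⟨a, b, c, d, ha, hb, hc, hd, h00, h01, h10, h11⟩ := hγ
  exact ⟨c, hc, h10⟩

theorem PrincQ.inGam_lift {γ : SL2Q} (hγ : PrincQ q N γ) :
    InGam ((N : ℕ) : Zq q) (liftZq q γ hγ.entry_mem) := by
  obtain ⟨a, b, c, d, ha, hb, hc, hd, h00, h01, h10, h11⟩ := hγ
  refine ⟨?_, ?_, ?_, ?_⟩
  · rw [dvd_iff]
    exact ⟨a, ha, by simp [liftZq_apply, h00]⟩
  · rw [dvd_iff]
    exact ⟨b, hb, by simp [liftZq_apply, h01]⟩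
  · rw [dvd_iff]
    exact ⟨c, hc, by simp [liftZq_apply, h10]⟩
  · rw [dvd_iff]
    exact ⟨d, hd, by simp [liftZq_apply, h11]⟩

theorem princQ_toQ {γ : SL2 (Zq q)} (hγ : InGam ((N : ℕ) : Zq q) γ) : PrincQ q N (toQ q γ) := by
  obtain ⟨h00, h01, h10, h11⟩ := hγ
  obtain ⟨a, ha, e00⟩ := (dvd_iff q N _).1 h00
  obtain ⟨b, hb, e01⟩ := (dvd_iff q N _).1 h01
  obtain ⟨c, hc, e10⟩ := (dvd_iff q N _).1 h10
  obtain ⟨d, hd, e11⟩ := (dvd_iff q N _).1 h11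
  refine ⟨a, b, c, d, ha, hb, hc, hd, ?_, e01, e10, ?_⟩
  · rw [toQ_apply, ← e00]; simp
  · rw [toQ_apply, ← e11]; simp

section main

variable {K : Type*} [CommGroup K] (Φ : ↥(Gam q N) →* K)

/-- the extension by zero of `Φ` to all of `SL(2, ℤ[1/q])`, written additively -/
noncomputable def extFun : SL2 (Zq q) → Additive K := fun g =>
  open Classical in if h : toQ q g ∈ Gam q N then Additive.ofMul (Φ ⟨toQ q g, h⟩) else 0

theorem extFun_of_mem {g : SL2 (Zq q)} (h : toQ q g ∈ Gam q N) :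
    extFun Φ g = Additive.ofMul (Φ ⟨toQ q g, h⟩) := by
  unfold extFun
  rw [dif_pos h]

theorem conj_uMat_mem (g : SL2 (Zq q)) {x : Zq q} (hx : ((N : ℕ) : Zq q) ∣ x) :
    toQ q (g * uMat x * g⁻¹) ∈ Gam q N :=
  toQ_mem_Gam_of_inGam q N ((inGam_uMat hx).conj g)

theorem extFun_adm
    (hunip : ∀ (g : SL2 (Zq q)) (x : Zq q) (hx : ((N : ℕ) : Zq q) ∣ x),
      Φ ⟨toQ q (g * uMat x * g⁻¹), conj_uMat_mem g hx⟩ = 1) :
    Adm ((N : ℕ) : Zq q) (extFun Φ) where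
  add x y hx hy := by
    have hx' := toQ_mem_Gam_of_inGam q N hx
    have hy' := toQ_mem_Gam_of_inGam q N hy
    have hxy' := toQ_mem_Gam_of_inGam q N (hx.mul hy)
    rw [extFun_of_mem Φ hxy', extFun_of_mem Φ hx', extFun_of_mem Φ hy', ← ofMul_mul, ← map_mul]
    congr 2
  unip g x hx := by
    rw [extFun_of_mem Φ (conj_uMat_mem g hx), hunip g x hx]
    rfl

/-- `SL(2, ℤ[1/q])` is generated by elementary matrices -/
theorem E2_Zq_eq_top (hq : q.Prime) : E2 (Zq q) = ⊤ :=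
  ElemGen.elemSubgroup_eq_top (ZqModel.nu (Zq q))
    (ZqModel.division (R := Zq q) (q := q) hq.ne_zero (fun _ => Iff.rfl))

/-- **Centrality of the congruence kernel of `Γ₀(N)[1/q]`** (`SL2 (Zq q)` form). -/
theorem centrality (hq : q.Prime) (hN : 0 < N) (hqN : ¬ q ∣ N)
    (hunip : ∀ (g : SL2 (Zq q)) (x : Zq q) (hx : ((N : ℕ) : Zq q) ∣ x),
      Φ ⟨toQ q (g * uMat x * g⁻¹), conj_uMat_mem g hx⟩ = 1)
    (g γ : SL2 (Zq q)) (hγ : InGam ((N : ℕ) : Zq q) γ) :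
    Φ ⟨toQ q (g * γ * g⁻¹), toQ_mem_Gam_of_inGam q N (hγ.conj g)⟩ =
      Φ ⟨toQ q γ, toQ_mem_Gam_of_inGam q N hγ⟩ := by
  have hNq : N.Coprime q := ((Nat.Prime.coprime_iff_not_dvd hq).2 hqN).symm
  have hU : UnitHyp ((N : ℕ) : Zq q) := unitHyp_Zq hq hN hNq
  have hg : g ∈ E2 (Zq q) := by rw [E2_Zq_eq_top hq]; trivial
  have h := (extFun_adm Φ hunip).conj_invariant hU hg γ hγ
  rw [extFun_of_mem Φ (toQ_mem_Gam_of_inGam q N (hγ.conj g)),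
    extFun_of_mem Φ (toQ_mem_Gam_of_inGam q N hγ)] at h
  exact Additive.ofMul.injective h

end main

/-- the upper unipotent matrix of `SL₂(ℚ)` -/
def uQ (x : ℚ) : SL2Q := ⟨!![1, x; 0, 1], by simp [Matrix.det_fin_two]⟩

theorem uQ_entry_mem {x : ℚ} (hx : x ∈ A q) : ∀ i j, (uQ x) i j ∈ A q := by
  rw [forall_fin2]
  exact ⟨(A q).one_mem, hx, (A q).zero_mem, (A q).one_mem⟩

theorem toQ_uMat (x : Zq q) : toQ q (uMat x) = uQ (x : ℚ) := by
  apply Subtype.ext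
  ext i j
  fin_cases i <;> fin_cases j <;> simp [toQ_apply, uMat_val, uQ]

/-- **Centrality of the congruence kernel of `Γ₀(N)[1/q]`** (`SL₂(ℚ)` form). -/
theorem centralityQ (hq : q.Prime) (hN : 0 < N) (hqN : ¬ q ∣ N)
    {K : Type*} [CommGroup K] (Φ : ↥(Gam q N) →* K)
    (hunip : ∀ (g : SL2Q) (_ : ∀ i j, g i j ∈ A q) (y : ℚ) (_ : y ∈ A q)
      (hmem : g * uQ (N * y) * g⁻¹ ∈ Gam q N), Φ ⟨g * uQ (N * y) * g⁻¹, hmem⟩ = 1)
    (g γ : SL2Q) (hg : ∀ i j, g i j ∈ A q) (hγ : PrincQ q N γ)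
    (h1 : g * γ * g⁻¹ ∈ Gam q N) (h2 : γ ∈ Gam q N) :
    Φ ⟨g * γ * g⁻¹, h1⟩ = Φ ⟨γ, h2⟩ := by
  have hunip' : ∀ (g : SL2 (Zq q)) (x : Zq q) (hx : ((N : ℕ) : Zq q) ∣ x),
      Φ ⟨toQ q (g * uMat x * g⁻¹), conj_uMat_mem g hx⟩ = 1 := by
    intro g x hx
    obtain ⟨y, hy, hxy⟩ := (dvd_iff q N x).1 hx
    have e : toQ q (g * uMat x * g⁻¹) = toQ q g * uQ (N * y) * (toQ q g)⁻¹ := by
      rw [map_mul, map_mul, map_inv, toQ_uMat, hxy]
    have hmem : toQ q g * uQ (N * y) * (toQ q g)⁻¹ ∈ Gam q N := by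
      rw [← e]; exact conj_uMat_mem g hx
    have := hunip (toQ q g) (toQ_entry_mem q g) y hy hmem
    rw [← this]
    congr 1
    exact Subtype.ext e
  have key := centrality Φ hq hN hqN hunip' (liftZq q g hg) (liftZq q γ hγ.entry_mem)
    hγ.inGam_lift
  have e1 : toQ q (liftZq q g hg * liftZq q γ hγ.entry_mem * (liftZq q g hg)⁻¹) = g * γ * g⁻¹ := by
    rw [map_mul, map_mul, map_inv, toQ_liftZq, toQ_liftZq]
  have e2 : toQ q (liftZq q γ hγ.entry_mem) = γ := toQ_liftZq q γ _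
  calc Φ ⟨g * γ * g⁻¹, h1⟩
      = Φ ⟨toQ q (liftZq q g hg * liftZq q γ hγ.entry_mem * (liftZq q g hg)⁻¹),
          toQ_mem_Gam_of_inGam q N (hγ.inGam_lift.conj _)⟩ := by
        congr 1; exact Subtype.ext e1.symm
    _ = Φ ⟨toQ q (liftZq q γ hγ.entry_mem), toQ_mem_Gam_of_inGam q N hγ.inGam_lift⟩ := key
    _ = Φ ⟨γ, h2⟩ := by congr 1

end Fermat.Agent.S41.Ihara.CentralityQ
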