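/-
S41 volunteer leaf (R2, invariance assembly), file 2/2: **an Ihara-kernel pair is
`SL(2, ℤ)`-invariant on `Γ(N)`**.

Input: `φ₁ φ₂ : Hom(Γ₀(N), H)` (`H` abelian, `q` injective on `H`), `φ₁` parabolic, and
`φ₁ g₁ + φ₂ g₂ = 0` whenever `diag(q,1) * g₁ = g₂ * diag(q,1)` (the pair lies in the kernel of
`res + B^*`).  Output: for `i = 1, 2`, `φ_i (g γ g⁻¹) = φ_i γ` for all `g ∈ SL(2, ℤ)`, `γ ∈ Γ(N)`;
this is the hypothesis `hinv` of helper18's Lemma X with `M = N`.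

Proof: transport `φ₁` to `Γ₁ = Gam1 N`, `-φ₂` to `Γ₂ = Gam2 q N = β⁻¹ Γ₀(N) β` (`twist`), glue
them to `Φ` on `Γ₀(N)[1/q] = Gam q N` by Ihara's amalgam theorem (helper10,
`Pushout.existsUnique_extension`), kill all parabolic elements (helper74, `kills_parabolic`), apply
the centrality theorem `CentralityQ.centralityQ`.
-/
import Fermat.Agent.S16.HeckeHom
import Fermat.Agent.S41.Amalgam.Pushout
import Fermat.Agent.S41.Ihara.CentralityQ
import Fermat.Agent.S41.Ihara.KillsUnipotents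

set_option autoImplicit false

namespace Fermat.Agent.S41.Ihara.KernelInvariance

open scoped MatrixGroups
open Matrix CongruenceSubgroup Fermat.Agent.S16.HeckeHom Fermat.Agent.S41.Amalgam.Groups
  Fermat.Agent.S41.Ihara.CentralityQ

/-! ### `SL(2, ℤ) → SL₂(ℚ)` -/

/-- the embedding `SL(2, ℤ) → SL₂(ℚ)` -/
def castQ : SL(2, ℤ) →* SL2Q := Matrix.SpecialLinearGroup.map (Int.castRingHom ℚ)

theorem castQ_apply (g : SL(2, ℤ)) (i j : Fin 2) : (castQ g) i j = ((g i j : ℤ) : ℚ) := rfl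

theorem castQ_injective : Function.Injective castQ := by
  intro g h hgh
  apply Subtype.ext
  ext i j
  have := congrArg (fun x : SL2Q => x i j) hgh
  simpa [castQ_apply] using this

theorem castQ_entry_mem (q : ℕ) (g : SL(2, ℤ)) (i j : Fin 2) : (castQ g) i j ∈ A q :=
  int_mem_A q _

/-! ### The twist `(a, b; c, d) ↦ (a, b/q; q c, d)` (conjugation by `diag(q,1)⁻¹`) -/

section twist

variable (q : ℕ) [hq : Fact q.Prime]

/-- conjugation by `β⁻¹`, `β = diag(q, 1)` -/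
def twist : SL2Q →* SL2Q where
  toFun g := ⟨!![g 0 0, g 0 1 / q; q * g 1 0, g 1 1], by
    have hq0 : (q : ℚ) ≠ 0 := q_ne_zero q
    rw [Matrix.det_fin_two_of]
    have := det_eq g
    field_simp
    linear_combination this⟩
  map_one' := by
    apply Subtype.ext
    ext i j
    fin_cases i <;> fin_cases j <;> simp
  map_mul' g h := by
    have hq0 : (q : ℚ) ≠ 0 := q_ne_zero q
    apply Subtype.ext
    ext i j
    fin_cases i <;> fin_cases j <;>
      simp [Matrix.mul_apply, Fin.sum_univ_two] <;> field_simp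

theorem twist_00 (g : SL2Q) : (twist q g) 0 0 = g 0 0 := rfl
theorem twist_01 (g : SL2Q) : (twist q g) 0 1 = g 0 1 / q := rfl
theorem twist_10 (g : SL2Q) : (twist q g) 1 0 = q * g 1 0 := rfl
theorem twist_11 (g : SL2Q) : (twist q g) 1 1 = g 1 1 := rfl

theorem twist_injective : Function.Injective (twist q) := by
  intro g h hgh
  have hq0 : (q : ℚ) ≠ 0 := q_ne_zero q
  have h00 := congrArg (fun x : SL2Q => x 0 0) hgh
  have h01 := congrArg (fun x : SL2Q => x 0 1) hgh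
  have h10 := congrArg (fun x : SL2Q => x 1 0) hgh
  have h11 := congrArg (fun x : SL2Q => x 1 1) hgh
  simp only [twist_00, twist_01, twist_10, twist_11] at h00 h01 h10 h11
  apply Subtype.ext
  ext i j
  fin_cases i <;> fin_cases j
  · exact h00
  · exact (div_left_inj' hq0).1 h01
  · exact mul_left_cancel₀ hq0 h10
  · exact h11

end twist

/-! ### The two embeddings of `Γ₀(N)` -/

section embeddings

variable (q N : ℕ) [hq : Fact q.Prime]

/-- `Γ₀(N) → SL₂(ℚ)`, with image `Gam1 N` -/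
def emb1 : Gamma0 N →* SL2Q := castQ.comp (Gamma0 N).subtype

/-- `Γ₀(N) → SL₂(ℚ)`, `g ↦ β⁻¹ g β`, with image `Gam2 q N` -/
def emb2 : Gamma0 N →* SL2Q := (twist q).comp (emb1 N)

theorem emb1_apply (g : Gamma0 N) (i j : Fin 2) : (emb1 N g) i j = ((mat g i j : ℤ) : ℚ) := rfl

theorem emb1_injective : Function.Injective (emb1 N) :=
  castQ_injective.comp Subtype.val_injective

theorem emb2_injective : Function.Injective (emb2 q N) :=
  (twist_injective q).comp (emb1_injective N)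

theorem emb1_mem (g : Gamma0 N) : emb1 N g ∈ Gam1 N := by
  refine ⟨fun i j => ⟨mat g i j, rfl⟩, ?_⟩
  obtain ⟨m, hm⟩ := dvd_mat_one_zero N g
  exact ⟨m, by rw [emb1_apply, hm]; push_cast; ring⟩

theorem emb2_mem (g : Gamma0 N) : emb2 q N g ∈ Gam2 q N := by
  obtain ⟨m, hm⟩ := dvd_mat_one_zero N g
  refine ⟨mat g 0 0, mat g 0 1, m, mat g 1 1, rfl, rfl, ?_, rfl⟩
  show (q : ℚ) * ((mat g 1 0 : ℤ) : ℚ) = q * (N * m)
  rw [hm]; push_cast; ring

/-- every element of `Gam1 N` comes from `Γ₀(N)` -/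
theorem exists_emb1_eq {γ : SL2Q} (hγ : γ ∈ Gam1 N) : ∃ g : Gamma0 N, emb1 N g = γ := by
  obtain ⟨h, m, hm⟩ := hγ
  obtain ⟨a, ha⟩ := h 0 0
  obtain ⟨b, hb⟩ := h 0 1
  obtain ⟨c, hc⟩ := h 1 0
  obtain ⟨d, hd⟩ := h 1 1
  have hdet : a * d - b * c = 1 := by
    have := det_eq γ
    rw [ha, hb, hc, hd] at this
    exact_mod_cast this
  have hcN : (N : ℤ) ∣ c := by
    refine ⟨m, ?_⟩
    have : (c : ℚ) = N * m := by rw [← hc, hm]
    exact_mod_cast this
  refine ⟨mkGamma0 N a b c d hdet hcN, ?_⟩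
  apply Subtype.ext
  ext i j
  fin_cases i <;> fin_cases j
  · exact ha.symm
  · exact hb.symm
  · exact hc.symm
  · exact hd.symm

/-- every element of `Gam2 q N` comes from `Γ₀(N)` -/
theorem exists_emb2_eq {γ : SL2Q} (hγ : γ ∈ Gam2 q N) : ∃ g : Gamma0 N, emb2 q N g = γ := by
  obtain ⟨a, b, c, d, ha, hb, hc, hd⟩ := hγ
  have hq0 : (q : ℚ) ≠ 0 := q_ne_zero q
  have hdet : a * d - b * ((N : ℤ) * c) = 1 := by
    have := det_eq γ
    rw [ha, hb, hc, hd] at this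
    have h2 : (a : ℚ) * d - b * (N * c) = 1 := by
      rw [← this]; field_simp
    exact_mod_cast h2
  refine ⟨mkGamma0 N a b ((N : ℤ) * c) d hdet (Dvd.intro _ rfl), ?_⟩
  apply Subtype.ext
  ext i j
  fin_cases i <;> fin_cases j
  · exact ha.symm
  · exact hb.symm
  · show (q : ℚ) * (((N : ℤ) * c : ℤ) : ℚ) = γ 1 0
    rw [hc]; push_cast; ring
  · exact hd.symm

theorem range_emb1 : (emb1 N).range = Gam1 N := by
  ext γ
  constructor
  · rintro ⟨g, rfl⟩; exact emb1_mem N g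
  · intro hγ; exact exists_emb1_eq N hγ

theorem range_emb2 : (emb2 q N).range = Gam2 q N := by
  ext γ
  constructor
  · rintro ⟨g, rfl⟩; exact emb2_mem q N g
  · intro hγ; exact exists_emb2_eq q N hγ

/-- `Γ₀(N) ≃* Gam1 N` -/
noncomputable def equiv1 : Gamma0 N ≃* ↥(Gam1 N) :=
  (MonoidHom.ofInjective (emb1_injective N)).trans (MulEquiv.subgroupCongr (range_emb1 N))

/-- `Γ₀(N) ≃* Gam2 q N` -/
noncomputable def equiv2 : Gamma0 N ≃* ↥(Gam2 q N) :=
  (MonoidHom.ofInjective (emb2_injective q N)).trans (MulEquiv.subgroupCongr (range_emb2 q N))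

theorem equiv1_apply (g : Gamma0 N) : ((equiv1 N g : ↥(Gam1 N)) : SL2Q) = emb1 N g := rfl

theorem equiv2_apply (g : Gamma0 N) : ((equiv2 q N g : ↥(Gam2 q N)) : SL2Q) = emb2 q N g := rfl

theorem equiv1_symm_apply (g : Gamma0 N) (h : emb1 N g ∈ Gam1 N) :
    (equiv1 N).symm ⟨emb1 N g, h⟩ = g := by
  rw [MulEquiv.symm_apply_eq]
  exact Subtype.ext (equiv1_apply N g).symm

theorem equiv2_symm_apply (g : Gamma0 N) (h : emb2 q N g ∈ Gam2 q N) :
    (equiv2 q N).symm ⟨emb2 q N g, h⟩ = g := by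
  rw [MulEquiv.symm_apply_eq]
  exact Subtype.ext (equiv2_apply q N g).symm

end embeddings

/-! ### The main theorem -/

section main

variable (q N : ℕ) [hq : Fact q.Prime] {H : Type*} [AddCommGroup H]

/-- transport of `φ : Hom(Γ₀(N), H)` to `Gam1 N` -/
noncomputable def hom1 (φ : Additive (Gamma0 N) →+ H) : ↥(Gam1 N) →* Multiplicative H :=
  (AddMonoidHom.toMultiplicativeRight φ).comp (equiv1 N).symm.toMonoidHom

/-- transport of `φ : Hom(Γ₀(N), H)` to `Gam2 q N` -/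
noncomputable def hom2 (φ : Additive (Gamma0 N) →+ H) : ↥(Gam2 q N) →* Multiplicative H :=
  (AddMonoidHom.toMultiplicativeRight φ).comp (equiv2 q N).symm.toMonoidHom

theorem hom1_emb1 (φ : Additive (Gamma0 N) →+ H) (g : Gamma0 N) (h : emb1 N g ∈ Gam1 N) :
    hom1 N φ ⟨emb1 N g, h⟩ = Multiplicative.ofAdd (φ (Additive.ofMul g)) := by
  show Multiplicative.ofAdd (φ (Additive.ofMul ((equiv1 N).symm ⟨emb1 N g, h⟩))) = _
  rw [equiv1_symm_apply]

theorem hom2_emb2 (φ : Additive (Gamma0 N) →+ H) (g : Gamma0 N) (h : emb2 q N g ∈ Gam2 q N) :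
    hom2 q N φ ⟨emb2 q N g, h⟩ = Multiplicative.ofAdd (φ (Additive.ofMul g)) := by
  show Multiplicative.ofAdd (φ (Additive.ofMul ((equiv2 q N).symm ⟨emb2 q N g, h⟩))) = _
  rw [equiv2_symm_apply]

omit hq in
/-- the image of `Γ(N)` under `castQ` lies in the principal congruence subgroup -/
theorem princQ_castQ {γ : SL(2, ℤ)} (hγ : γ ∈ Gamma N) : PrincQ q N (castQ γ) := by
  rw [Gamma_mem] at hγ
  obtain ⟨h00, h01, h10, h11⟩ := hγ
  have d00 : (N : ℤ) ∣ γ 0 0 - 1 := by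
    rw [← ZMod.intCast_zmod_eq_zero_iff_dvd]; push_cast; rw [h00]; ring
  have d01 : (N : ℤ) ∣ γ 0 1 := by
    rw [← ZMod.intCast_zmod_eq_zero_iff_dvd]; exact h01
  have d10 : (N : ℤ) ∣ γ 1 0 := by
    rw [← ZMod.intCast_zmod_eq_zero_iff_dvd]; exact h10
  have d11 : (N : ℤ) ∣ γ 1 1 - 1 := by
    rw [← ZMod.intCast_zmod_eq_zero_iff_dvd]; push_cast; rw [h11]; ring
  obtain ⟨a, ha⟩ := d00
  obtain ⟨b, hb⟩ := d01
  obtain ⟨c, hc⟩ := d10
  obtain ⟨d, hd⟩ := d11
  refine ⟨a, b, c, d, int_mem_A q a, int_mem_A q b, int_mem_A q c, int_mem_A q d, ?_, ?_, ?_, ?_⟩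
  · rw [castQ_apply]
    have : γ 0 0 = 1 + N * a := by linarith
    rw [this]; push_cast; ring
  · rw [castQ_apply, hb]; push_cast; ring
  · rw [castQ_apply, hc]; push_cast; ring
  · rw [castQ_apply]
    have : γ 1 1 = 1 + N * d := by linarith
    rw [this]; push_cast; ring

/-- the twisted image of `Γ(N)` lies in the principal congruence subgroup of `SL(2, ℤ[1/q])` -/
theorem princQ_twist {γ : SL2Q} (hγ : PrincQ q N γ) : PrincQ q N (twist q γ) := by
  obtain ⟨a, b, c, d, ha, hb, hc, hd, h00, h01, h10, h11⟩ := hγ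
  have hq0 : (q : ℚ) ≠ 0 := q_ne_zero q
  refine ⟨a, b / q, q * c, d, ha, ?_, (A q).mul_mem (nat_mem_A q q) hc, hd, ?_, ?_, ?_, ?_⟩
  · rw [div_eq_mul_inv]
    exact (A q).mul_mem hb (inv_q_mem_A q hq.out.ne_zero)
  · rw [twist_00, h00]
  · rw [twist_01, h01]; ring
  · rw [twist_10, h10]; ring
  · rw [twist_11, h11]

theorem twist_entry_mem {g : SL2Q} (hg : ∀ i j, g i j ∈ A q) : ∀ i j, (twist q g) i j ∈ A q := by
  rw [forall_fin2, twist_00, twist_01, twist_10, twist_11]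
  refine ⟨hg 0 0, ?_, (A q).mul_mem (nat_mem_A q q) (hg 1 0), hg 1 1⟩
  rw [div_eq_mul_inv]
  exact (A q).mul_mem (hg 0 1) (inv_q_mem_A q hq.out.ne_zero)

/-- **An Ihara-kernel pair is `SL(2, ℤ)`-invariant on `Γ(N)`.** -/
theorem kernel_invariance (hN : 0 < N) (hqN : ¬ q ∣ N)
    (hqH : ∀ x : H, q • x = 0 → x = 0)
    (φ1 φ2 : Additive (Gamma0 N) →+ H)
    (hpar1 : ModularCurve.Period.IsParabolicHom (Gamma0 N) φ1)
    (hker : ∀ g1 g2 : Gamma0 N,
      !![(q : ℤ), 0; 0, 1] * mat g1 = mat g2 * !![(q : ℤ), 0; 0, 1] →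
        φ1 (Additive.ofMul g1) + φ2 (Additive.ofMul g2) = 0) :
    (∀ (g : SL(2, ℤ)) (γ : Gamma0 N), (γ : SL(2, ℤ)) ∈ Gamma N →
      ∀ h : g * γ * g⁻¹ ∈ Gamma0 N,
        φ1 (Additive.ofMul ⟨g * γ * g⁻¹, h⟩) = φ1 (Additive.ofMul γ)) ∧
    (∀ (g : SL(2, ℤ)) (γ : Gamma0 N), (γ : SL(2, ℤ)) ∈ Gamma N →
      ∀ h : g * γ * g⁻¹ ∈ Gamma0 N,
        φ2 (Additive.ofMul ⟨g * γ * g⁻¹, h⟩) = φ2 (Additive.ofMul γ)) := by
  have hq0 : (q : ℚ) ≠ 0 := q_ne_zero q
  -- compatibility on the intersection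
  have hcompat : ∀ (g : SL2Q) (h1 : g ∈ Gam1 N) (h2 : g ∈ Gam2 q N),
      hom1 N φ1 ⟨g, h1⟩ = hom2 q N (-φ2) ⟨g, h2⟩ := by
    intro g h1 h2
    obtain ⟨g1, rfl⟩ := exists_emb1_eq N h1
    obtain ⟨g2, hg2⟩ := exists_emb2_eq q N h2
    have e2 : hom2 q N (-φ2) ⟨emb1 N g1, h2⟩ = hom2 q N (-φ2) ⟨emb2 q N g2, emb2_mem q N g2⟩ := by
      congr 1
      exact Subtype.ext hg2.symm
    rw [e2, hom1_emb1, hom2_emb2]
    congr 1
    have h00 := congrArg (fun x : SL2Q => x 0 0) hg2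
    have h01 := congrArg (fun x : SL2Q => x 0 1) hg2
    have h10 := congrArg (fun x : SL2Q => x 1 0) hg2
    have h11 := congrArg (fun x : SL2Q => x 1 1) hg2
    simp only [emb2, MonoidHom.comp_apply, twist_00, twist_01, twist_10, twist_11,
      emb1_apply] at h00 h01 h10 h11
    have k00 : mat g2 0 0 = mat g1 0 0 := by exact_mod_cast h00
    have k01 : mat g2 0 1 = q * mat g1 0 1 := by
      have : ((mat g2 0 1 : ℤ) : ℚ) = q * (mat g1 0 1 : ℤ) := by
        rw [← h01]; field_simp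
      exact_mod_cast this
    have k10 : q * mat g2 1 0 = mat g1 1 0 := by exact_mod_cast h10
    have k11 : mat g2 1 1 = mat g1 1 1 := by exact_mod_cast h11
    have hrel : !![(q : ℤ), 0; 0, 1] * mat g1 = mat g2 * !![(q : ℤ), 0; 0, 1] := by
      ext i j
      fin_cases i <;> fin_cases j <;>
        simp [Matrix.mul_apply, Fin.sum_univ_two, k00, k01, ← k10, k11] <;> ring
    have := hker g1 g2 hrel
    rw [AddMonoidHom.neg_apply]
    exact eq_neg_of_add_eq_zero_left this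
  -- the glued homomorphism
  obtain ⟨Φ, ⟨hΦ1, hΦ2⟩, -⟩ :=
    Fermat.Agent.S41.Amalgam.Pushout.existsUnique_extension q N hqN (hom1 N φ1) (hom2 q N (-φ2))
      hcompat
  -- `x ↦ x ^ q` is injective on the target
  have hqK : ∀ x : Multiplicative H, x ^ q = 1 → x = 1 := by
    intro x hx
    have := hqH (Multiplicative.toAdd x) (by
      have := congrArg Multiplicative.toAdd hx
      simpa using this)
    exact Multiplicative.toAdd.injective this
  -- `Φ` kills the parabolic elements of `Γ₀(N)`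
  have hpar : ∀ (g : SL2Q) (h : g ∈ Gam1 N), (g 0 0 + g 1 1) ^ 2 = 4 →
      Φ ⟨g, Gam1_le q N h⟩ = 1 := by
    intro g h htr
    obtain ⟨g1, rfl⟩ := exists_emb1_eq N h
    rw [hΦ1 _ h, hom1_emb1]
    have : φ1 (Additive.ofMul g1) = 0 := by
      apply hpar1
      rw [Matrix.trace_fin_two]
      rw [emb1_apply, emb1_apply] at htr
      exact_mod_cast htr
    rw [this]; rfl
  -- `Φ` kills all conjugates of unipotents
  have hunip : ∀ (g : SL2Q) (_ : ∀ i j, g i j ∈ A q) (y : ℚ) (_ : y ∈ A q)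
      (hmem : g * uQ (N * y) * g⁻¹ ∈ Gam q N), Φ ⟨g * uQ (N * y) * g⁻¹, hmem⟩ = 1 := by
    intro g _ y _ hmem
    apply Fermat.Agent.S41.Ihara.KillsUnipotents.kills_parabolic hqK Φ hpar
    rw [Fermat.Agent.S41.Ihara.KillsUnipotents.trace_conj_eq]
    show ((1 : ℚ) + 1) ^ 2 = 4
    norm_num
  have hcent := centralityQ hq.out hN hqN Φ hunip
  constructor
  · intro g γ hγ h
    have hP : PrincQ q N (castQ (γ : SL(2, ℤ))) := princQ_castQ q N hγ
    have e : emb1 N ⟨g * γ * g⁻¹, h⟩ = castQ g * castQ (γ : SL(2, ℤ)) * (castQ g)⁻¹ := by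
      show castQ (g * γ * g⁻¹) = _
      rw [map_mul, map_mul, map_inv]
    have h1 : castQ g * castQ (γ : SL(2, ℤ)) * (castQ g)⁻¹ ∈ Gam q N := by
      rw [← e]; exact Gam1_le q N (emb1_mem N _)
    have key := hcent (castQ g) (castQ (γ : SL(2, ℤ))) (castQ_entry_mem q g) hP h1
      (Gam1_le q N (emb1_mem N γ))
    have l1 : Φ ⟨castQ g * castQ (γ : SL(2, ℤ)) * (castQ g)⁻¹, h1⟩ =
        Multiplicative.ofAdd (φ1 (Additive.ofMul ⟨g * γ * g⁻¹, h⟩)) := by
      rw [← hom1_emb1 N φ1 ⟨g * γ * g⁻¹, h⟩ (emb1_mem N _), ← hΦ1]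
      congr 1
      exact Subtype.ext e.symm
    have l2 : Φ ⟨castQ (γ : SL(2, ℤ)), Gam1_le q N (emb1_mem N γ)⟩ =
        Multiplicative.ofAdd (φ1 (Additive.ofMul γ)) := by
      rw [← hom1_emb1 N φ1 γ (emb1_mem N _), ← hΦ1]
      rfl
    rw [l1, l2] at key
    exact Multiplicative.ofAdd.injective key
  · intro g γ hγ h
    have hP : PrincQ q N (twist q (castQ (γ : SL(2, ℤ)))) :=
      princQ_twist q N (princQ_castQ q N hγ)
    have e : emb2 q N ⟨g * γ * g⁻¹, h⟩ =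
        twist q (castQ g) * twist q (castQ (γ : SL(2, ℤ))) * (twist q (castQ g))⁻¹ := by
      show twist q (castQ (g * γ * g⁻¹)) = _
      rw [map_mul, map_mul, map_inv, map_mul, map_mul, map_inv]
    have h1 : twist q (castQ g) * twist q (castQ (γ : SL(2, ℤ))) * (twist q (castQ g))⁻¹ ∈
        Gam q N := by
      rw [← e]; exact Gam2_le q N (emb2_mem q N _)
    have key := hcent (twist q (castQ g)) (twist q (castQ (γ : SL(2, ℤ))))
      (twist_entry_mem q (castQ_entry_mem q g)) hP h1 (Gam2_le q N (emb2_mem q N γ))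
    have l1 : Φ ⟨twist q (castQ g) * twist q (castQ (γ : SL(2, ℤ))) * (twist q (castQ g))⁻¹, h1⟩ =
        Multiplicative.ofAdd ((-φ2) (Additive.ofMul ⟨g * γ * g⁻¹, h⟩)) := by
      rw [← hom2_emb2 q N (-φ2) ⟨g * γ * g⁻¹, h⟩ (emb2_mem q N _), ← hΦ2]
      congr 1
      exact Subtype.ext e.symm
    have l2 : Φ ⟨twist q (castQ (γ : SL(2, ℤ))), Gam2_le q N (emb2_mem q N γ)⟩ =
        Multiplicative.ofAdd ((-φ2) (Additive.ofMul γ)) := by
      rw [← hom2_emb2 q N (-φ2) γ (emb2_mem q N _), ← hΦ2]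
      rfl
    rw [l1, l2] at key
    have := Multiplicative.ofAdd.injective key
    rw [AddMonoidHom.neg_apply, AddMonoidHom.neg_apply] at this
    exact neg_injective this

end main

end Fermat.Agent.S41.Ihara.KernelInvariance
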