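/-
S41 volunteer leaf (R2 = (P4) of the architecture): **Ihara's lemma in the form used by the
level-raising argument** — the kernel of `res + B^*` is Eisenstein at every prime that is a
square modulo `N`.

`φ₁ φ₂ : Hom(Γ₀(N), H)`, `φ₁` parabolic, `φ₁ g₁ + φ₂ g₂ = 0` whenever
`diag(q,1) * g₁ = g₂ * diag(q,1)` (`q` prime, `q ∤ N`, `q` and `2` injective on `H`).  Then
`T_l φ_i = (l + 1) • φ_i` (`i = 1, 2`) for every prime `l ∤ N` which is a square modulo `N`.

Proof: `KernelInvariance.kernel_invariance` (amalgam + kills unipotents + centrality of the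
congruence kernel of `Γ₀(N)[1/q]`) gives the `SL(2, ℤ)`-invariance of `φ_i` on `Γ(N)`, and
helper18's Lemma X (`heckeHom_eq_of_two`, `M = N`) concludes.
-/
import Fermat.Agent.S41.Ihara.KernelInvariance
import Fermat.Agent.S41.Ihara.EisensteinOfInvariant

set_option autoImplicit false

namespace Fermat.Agent.S41.Ihara.KernelEisenstein

open scoped MatrixGroups
open Matrix CongruenceSubgroup Fermat.Agent.S16.HeckeHom

/-- **Ihara's lemma, Eisenstein form at squares.** -/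
theorem ihara_kernel_eisenstein (q N l : ℕ) [hq : Fact q.Prime] [hl : Fact l.Prime]
    {H : Type*} [AddCommGroup H] (hN : 0 < N) (hqN : ¬ q ∣ N) (hlN : ¬ l ∣ N)
    (t : ℤ) (ht2 : ((t : ℤ) : ZMod N) ^ 2 = (l : ZMod N))
    (hqH : ∀ x : H, q • x = 0 → x = 0) (h2 : ∀ x : H, (2 : ℕ) • x = 0 → x = 0)
    (φ1 φ2 : Additive (Gamma0 N) →+ H)
    (hpar1 : ModularCurve.Period.IsParabolicHom (Gamma0 N) φ1)
    (hker : ∀ g1 g2 : Gamma0 N,
      !![(q : ℤ), 0; 0, 1] * mat g1 = mat g2 * !![(q : ℤ), 0; 0, 1] →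
        φ1 (Additive.ofMul g1) + φ2 (Additive.ofMul g2) = 0) :
    (cosetT N l hlN).heckeHom φ1 = (l + 1) • φ1 ∧
      (cosetT N l hlN).heckeHom φ2 = (l + 1) • φ2 := by
  obtain ⟨inv1, inv2⟩ :=
    KernelInvariance.kernel_invariance q N hN hqN hqH φ1 φ2 hpar1 hker
  have hlM : Nat.Coprime l N := (Nat.Prime.coprime_iff_not_dvd hl.out).2 hlN
  constructor
  · refine heckeHom_eq_of_two (dvd_refl N) hlN hlM t ht2 φ1 ?_ h2
    intro g γ hγ
    exact inv1 g ⟨γ, Gamma_le_Gamma0 N (dvd_refl N) hγ⟩ hγ _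
  · refine heckeHom_eq_of_two (dvd_refl N) hlN hlM t ht2 φ2 ?_ h2
    intro g γ hγ
    exact inv2 g ⟨γ, Gamma_le_Gamma0 N (dvd_refl N) hγ⟩ hγ _

end Fermat.Agent.S41.Ihara.KernelEisenstein
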