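/-
S41 volunteer leaf ((P4) → (P2) joint): **Ihara's lemma for integral parabolic classes**, in the
shape of the hypothesis `hIhara` of the abstract level-raising lemma
(`α x ∈ p M ⇒ (T_l - (l+1)) x_i ∈ p L`).

`x₁ x₂ : Hom(Γ₀(N), ℤ)`, `x₁` parabolic, `p` an odd prime, `q ≠ p` prime, `q ∤ N`, and
`p ∣ x₁ g₁ + x₂ g₂` whenever `diag(q,1) * g₁ = g₂ * diag(q,1)` (i.e. `res₁ x₁ + res₂ x₂ ∈ p Hom`).
Then for every prime `l ∤ N` which is a square modulo `N` there are `z₁ z₂ : Hom(Γ₀(N), ℤ)` with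
`T_l x_i - (l + 1) x_i = p z_i`; and `z_i` is parabolic as soon as `T_l x_i - (l+1) x_i` is.
-/
import Fermat.Agent.S41.Ihara.KernelEisenstein

set_option autoImplicit false

namespace Fermat.Agent.S41.Ihara.KernelEisensteinInt

open scoped MatrixGroups
open Matrix CongruenceSubgroup Fermat.Agent.S16.HeckeHom ModularCurve.Period

/-- a `ℤ`-valued homomorphism all of whose values are divisible by `p` is `p` times a
homomorphism -/
theorem exists_eq_smul {G : Type*} [Group G] (p : ℤ) (ψ : Additive G →+ ℤ)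
    (h : ∀ g, p ∣ ψ g) : ∃ z : Additive G →+ ℤ, ψ = p • z := by
  refine ⟨{ toFun := fun g => ψ g / p
            map_zero' := by simp
            map_add' := fun a b => by
              rw [map_add]
              exact Int.add_ediv_of_dvd_left (h a) }, ?_⟩
  refine AddMonoidHom.ext fun g => ?_
  show ψ g = p • (ψ g / p)
  rw [smul_eq_mul, Int.mul_ediv_cancel' (h g)]

/-- if `p • z` is parabolic (`p ≠ 0`), so is `z` -/
theorem isParabolicHom_of_smul {Γ : Subgroup SL(2, ℤ)} {p : ℤ} (hp : p ≠ 0)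
    {z : Additive Γ →+ ℤ} (h : IsParabolicHom Γ (p • z)) : IsParabolicHom Γ z := by
  intro γ hγ
  have := h γ hγ
  rw [AddMonoidHom.smul_apply, smul_eq_mul] at this
  exact (mul_eq_zero.1 this).resolve_left hp

/-- reduction mod `p` of a `ℤ`-valued homomorphism -/
def redHom {G : Type*} [Group G] (p : ℕ) (x : Additive G →+ ℤ) : Additive G →+ ZMod p :=
  (Int.castAddHom (ZMod p)).comp x

theorem redHom_apply {G : Type*} [Group G] (p : ℕ) (x : Additive G →+ ℤ) (g : Additive G) :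
    redHom p x g = ((x g : ℤ) : ZMod p) := rfl

theorem zmod_nsmul_inj {p n : ℕ} [hp : Fact p.Prime] (hn : n.Prime) (hpn : p ≠ n) :
    ∀ x : ZMod p, n • x = 0 → x = 0 := by
  intro x hx
  rw [nsmul_eq_mul] at hx
  have hn0 : (n : ZMod p) ≠ 0 := by
    intro h0
    rw [ZMod.natCast_eq_zero_iff] at h0
    exact hpn ((Nat.prime_dvd_prime_iff_eq hp.out hn).mp h0)
  exact (mul_eq_zero.mp hx).resolve_left hn0

/-- **Ihara's lemma, integral form** (the hypothesis `hIhara` of the level-raising lemma). -/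
theorem ihara_integral (q N l p : ℕ) [hq : Fact q.Prime] [hl : Fact l.Prime] [hp : Fact p.Prime]
    (hp2 : p ≠ 2) (hpq : p ≠ q) (hN : 0 < N) (hqN : ¬ q ∣ N) (hlN : ¬ l ∣ N)
    (t : ℤ) (ht2 : ((t : ℤ) : ZMod N) ^ 2 = (l : ZMod N))
    (x1 x2 : Additive (Gamma0 N) →+ ℤ) (hx1 : IsParabolicHom (Gamma0 N) x1)
    (hker : ∀ g1 g2 : Gamma0 N,
      !![(q : ℤ), 0; 0, 1] * mat g1 = mat g2 * !![(q : ℤ), 0; 0, 1] →
        (p : ℤ) ∣ x1 (Additive.ofMul g1) + x2 (Additive.ofMul g2)) :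
    ∃ z1 z2 : Additive (Gamma0 N) →+ ℤ,
      (cosetT N l hlN).heckeHom x1 - ((l : ℤ) + 1) • x1 = (p : ℤ) • z1 ∧
      (cosetT N l hlN).heckeHom x2 - ((l : ℤ) + 1) • x2 = (p : ℤ) • z2 := by
  have hpar1 : IsParabolicHom (Gamma0 N) (redHom p x1) := by
    intro γ hγ
    rw [redHom_apply, hx1 γ hγ]; simp
  have hker' : ∀ g1 g2 : Gamma0 N,
      !![(q : ℤ), 0; 0, 1] * mat g1 = mat g2 * !![(q : ℤ), 0; 0, 1] →
        redHom p x1 (Additive.ofMul g1) + redHom p x2 (Additive.ofMul g2) = 0 := by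
    intro g1 g2 h
    rw [redHom_apply, redHom_apply, ← Int.cast_add]
    exact (ZMod.intCast_zmod_eq_zero_iff_dvd _ p).2 (hker g1 g2 h)
  obtain ⟨e1, e2⟩ := KernelEisenstein.ihara_kernel_eisenstein q N l hN hqN hlN t ht2
    (zmod_nsmul_inj hq.out hpq) (zmod_nsmul_inj Nat.prime_two hp2)
    (redHom p x1) (redHom p x2) hpar1 hker'
  have key : ∀ x : Additive (Gamma0 N) →+ ℤ,
      (cosetT N l hlN).heckeHom (redHom p x) = (l + 1) • redHom p x →
      ∃ z : Additive (Gamma0 N) →+ ℤ,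
        (cosetT N l hlN).heckeHom x - ((l : ℤ) + 1) • x = (p : ℤ) • z := by
    intro x hx
    apply exists_eq_smul
    intro g
    rw [← ZMod.intCast_zmod_eq_zero_iff_dvd]
    have hc : (cosetT N l hlN).heckeHom (redHom p x) =
        (Int.castAddHom (ZMod p)).comp ((cosetT N l hlN).heckeHom x) :=
      CosetSystem.heckeHom_comp _ _ x
    have h1 : (Int.castAddHom (ZMod p)).comp ((cosetT N l hlN).heckeHom x) =
        (l + 1) • redHom p x := by rw [← hc]; exact hx
    simp only [AddMonoidHom.sub_apply, AddMonoidHom.smul_apply, smul_eq_mul]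
    push_cast
    have h2 : (((cosetT N l hlN).heckeHom x g : ℤ) : ZMod p) =
        ((l : ZMod p) + 1) * ((x g : ℤ) : ZMod p) := by
      have h3 := congrArg (fun f : Additive (Gamma0 N) →+ ZMod p => f g) h1
      simp only [AddMonoidHom.coe_comp, Function.comp_apply, AddMonoidHom.smul_apply,
        redHom_apply, nsmul_eq_mul] at h3
      rw [show ((Int.castAddHom (ZMod p)) (((cosetT N l hlN).heckeHom x) g)) =
        (((cosetT N l hlN).heckeHom x g : ℤ) : ZMod p) from rfl] at h3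
      rw [h3]; push_cast; rfl
    rw [h2]; ring
  obtain ⟨z1, hz1⟩ := key x1 e1
  obtain ⟨z2, hz2⟩ := key x2 e2
  exact ⟨z1, z2, hz1, hz2⟩

end Fermat.Agent.S41.Ihara.KernelEisensteinInt
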