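/-
S41 volunteer leaf ((P4) → (P2) joint, level form): **Ihara's lemma in the literal shape of the
hypothesis `hIhara`** of the abstract level-raising lemma, for helper59's degeneracy maps
`res1`, `res2 d` (`Fermat.Agent.S41.Level.Degeneracy`).

* `res2_apply_of_rel`: `res2 d φ g = φ g₂` whenever `diag(q,1) * g = g₂ * diag(q,1)`
  (the Atkin-Lehner matrix is `γ' * diag(q,1)` with `γ' ∈ Γ₀(N)`);
* `ihara_level`: `res1 x₁ + res2 d x₂ = p • y` ⇒ `T_l x_i - (l + 1) x_i = p • z_i` for every prime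
  `l ∤ N` which is a square modulo `N` (`x₁` parabolic, `p` odd, `p ≠ q`).
-/
import Fermat.Agent.S41.Level.Degeneracy
import Fermat.Agent.S41.Ihara.KernelEisensteinInt

set_option autoImplicit false

namespace Fermat.Agent.S41.Ihara.IharaLevel

open scoped MatrixGroups
open Matrix CongruenceSubgroup Fermat.Agent.S16.HeckeHom ModularCurve.Period
  Fermat.Agent.S41.Level

variable {N q : ℕ} {A : Type*} [AddCommGroup A]

/-- the matrix `diag(q, 1)` -/
def Bq (q : ℕ) : Matrix (Fin 2) (Fin 2) ℤ := !![(q : ℤ), 0; 0, 1]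

theorem det_Bq (q : ℕ) : (Bq q).det = q := by
  rw [Bq, Matrix.det_fin_two_of]; ring

/-- the element `γ' = (x, 1; N z, q)` of `Γ₀(N)` with `W = γ' * diag(q, 1)` -/
def gammaPrime (d : ALData N q) : Gamma0 N :=
  mkGamma0 N d.x 1 ((N : ℤ) * d.z) (q : ℤ) (by linear_combination d.hxz) (Dvd.intro _ rfl)

theorem W_eq (d : ALData N q) : d.W = mat (gammaPrime d) * Bq q := by
  rw [gammaPrime, mat_mkGamma0, ALData.W, Bq]
  ext i j
  fin_cases i <;> fin_cases j <;> simp [Matrix.mul_apply, Fin.sum_univ_two] <;> ring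

/-- **Evaluation of `res2`**: `res2 d φ g = φ (B g B⁻¹)`, in relation form. -/
theorem res2_apply_of_rel (d : ALData N q) (φ : Additive (Gamma0 N) →+ A)
    (g : Gamma0 (N * q)) (g2 : Gamma0 N) (h : Bq q * mat g = mat g2 * Bq q) :
    res2 d φ (Additive.ofMul g) = φ (Additive.ofMul g2) := by
  have hq0 : (Bq q).det ≠ 0 := by rw [det_Bq]; exact_mod_cast d.hq.ne'
  -- unfold `res2`
  have e1 : res2 d φ (Additive.ofMul g) =
      φ (Additive.ofMul (Subgroup.inclusion (gamma0_mul_le N q) (d.conjW g))) := by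
    show (d.alSys.op (res1 φ)) (Additive.ofMul g) = _
    rw [WCS.op_apply, Fintype.sum_unique, res1_apply]
    rfl
  rw [e1]
  set c : Gamma0 N := Subgroup.inclusion (gamma0_mul_le N q) (d.conjW g) with hc
  have hmatc : mat c = mat (d.conjW g) := rfl
  -- `c * γ' = γ' * g2`
  have key : c * gammaPrime d = gammaPrime d * g2 := by
    apply mat_injective
    rw [mat_mul, mat_mul]
    apply mul_right_cancel_of_det_ne_zero hq0
    have h1 := d.conjW_spec g
    rw [W_eq] at h1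
    rw [hmatc, Matrix.mul_assoc, ← h1, Matrix.mul_assoc, h, Matrix.mul_assoc]
  have key' : c = gammaPrime d * g2 * (gammaPrime d)⁻¹ := by
    rw [← key]; group
  rw [key', ofMul_mul, ofMul_mul, ofMul_inv, map_add, map_add, map_neg]
  abel

/-- **Ihara's lemma, literal `hIhara` shape** for `res1`, `res2 d`. -/
theorem ihara_level (q N l p : ℕ) [hq : Fact q.Prime] [hl : Fact l.Prime] [hp : Fact p.Prime]
    (hp2 : p ≠ 2) (hpq : p ≠ q) (hN : 0 < N) (hqN : ¬ q ∣ N) (hlN : ¬ l ∣ N)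
    (t : ℤ) (ht2 : ((t : ℤ) : ZMod N) ^ 2 = (l : ZMod N)) (d : ALData N q)
    (x1 x2 : Additive (Gamma0 N) →+ ℤ) (hx1 : IsParabolicHom (Gamma0 N) x1)
    (y : Additive (Gamma0 (N * q)) →+ ℤ) (hy : res1 x1 + res2 d x2 = (p : ℤ) • y) :
    ∃ z1 z2 : Additive (Gamma0 N) →+ ℤ,
      (cosetT N l hlN).heckeHom x1 - ((l : ℤ) + 1) • x1 = (p : ℤ) • z1 ∧
      (cosetT N l hlN).heckeHom x2 - ((l : ℤ) + 1) • x2 = (p : ℤ) • z2 := by
  refine KernelEisensteinInt.ihara_integral q N l p hp2 hpq hN hqN hlN t ht2 x1 x2 hx1 ?_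
  intro g1 g2 h
  -- `g1` lies in `Γ₀(N q)`
  have h10 := congrFun (congrFun h 1) 0
  simp [Matrix.mul_apply, Fin.sum_univ_two] at h10
  obtain ⟨m, hm⟩ := dvd_mat_one_zero N g2
  have hmem : (g1 : SL(2, ℤ)) ∈ Gamma0 (N * q) := by
    rw [Gamma0_mem, ZMod.intCast_zmod_eq_zero_iff_dvd]
    refine ⟨m, ?_⟩
    have : mat g1 1 0 = mat g2 1 0 * q := h10
    show mat g1 1 0 = _
    rw [this, hm]; push_cast; ring
  set g : Gamma0 (N * q) := ⟨(g1 : SL(2, ℤ)), hmem⟩ with hg
  have hincl : Subgroup.inclusion (gamma0_mul_le N q) g = g1 := Subtype.ext rfl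
  have e1 : res1 x1 (Additive.ofMul g) = x1 (Additive.ofMul g1) := by
    rw [res1_apply, hincl]
  have e2 : res2 d x2 (Additive.ofMul g) = x2 (Additive.ofMul g2) :=
    res2_apply_of_rel d x2 g g2 h
  have := congrArg (fun f : Additive (Gamma0 (N * q)) →+ ℤ => f (Additive.ofMul g)) hy
  simp only [AddMonoidHom.add_apply, AddMonoidHom.smul_apply, smul_eq_mul] at this
  rw [e1, e2] at this
  exact ⟨_, this⟩

end Fermat.Agent.S41.Ihara.IharaLevel
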