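/-
S41 volunteer leaf (R2b): a homomorphism on `Γ₀(N)[1/q]` that kills the parabolic elements
(`trace² = 4`) of the integral part `Γ₀(N)` kills EVERY element of `Γ₀(N)[1/q]` with `trace² = 4`,
as soon as `x ↦ x^q` is injective on the (commutative) target, e.g. target `ZMod p`, `p ≠ q`.

Proof: for `γ` with trace `2`, `γ^m = 1 + m (γ - 1)`; the entries of `γ - 1` lie in `ℤ[1/q]`, so
`γ^(q^k)` is integral (and its lower-left entry is in `N ℤ`) for `k` large: it is a parabolic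
element of `Γ₀(N)`.  Trace `-2`: multiply by `-1 ∈ Γ₀(N)`.  No cusps are needed.

On top of helper10's `Fermat.Agent.S41.Amalgam.Groups` (`SL2Q`, `A q`, `Gam q N`, `Gam1 N`).
-/
import Mathlib
import Fermat.Agent.S41.Amalgam.Groups

set_option autoImplicit false

namespace Fermat.Agent.S41.Ihara.KillsUnipotents

open Matrix Fermat.Agent.S41.Amalgam.Groups

/-- Powers of a trace-`2` element of `SL₂(ℚ)`: `γ^m = 1 + m (γ - 1)`. -/
theorem pow_apply_of_trace_two (γ : SL2Q) (h : γ 0 0 + γ 1 1 = 2) (m : ℕ) :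
    (γ ^ m) 0 0 = 1 + m * (γ 0 0 - 1) ∧ (γ ^ m) 0 1 = m * γ 0 1 ∧
      (γ ^ m) 1 0 = m * γ 1 0 ∧ (γ ^ m) 1 1 = 1 + m * (γ 1 1 - 1) := by
  have hdet := det_eq γ
  have hd : γ 1 1 = 2 - γ 0 0 := by linarith
  induction m with
  | zero =>
    simp
  | succ m ih =>
    obtain ⟨h00, h01, h10, h11⟩ := ih
    rw [pow_succ]
    refine ⟨?_, ?_, ?_, ?_⟩
    · rw [mul_apply', h00, h01]; push_cast
      rw [hd] at hdet
      linear_combination (-(m : ℚ)) * hdet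
    · rw [mul_apply', h00, h01]; push_cast
      rw [hd]; ring
    · rw [mul_apply', h10, h11]; push_cast
      rw [hd]; ring
    · rw [mul_apply', h10, h11]; push_cast
      rw [hd] at hdet ⊢
      linear_combination (-(m : ℚ)) * hdet

/-- An element of `ℤ[1/q]` becomes an integer after multiplication by `q^k`, for all large `k`. -/
theorem exists_int_of_mem_A {q : ℕ} {x : ℚ} (hx : x ∈ A q) :
    ∃ k : ℕ, ∀ K : ℕ, k ≤ K → ∃ m : ℤ, (q : ℚ) ^ K * x = m := by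
  obtain ⟨k, m, hm⟩ := hx
  refine ⟨k, fun K hK => ⟨q ^ (K - k) * m, ?_⟩⟩
  obtain ⟨d, rfl⟩ := Nat.exists_eq_add_of_le hK
  rw [Nat.add_sub_cancel_left]
  push_cast
  rw [← hm]; ring

variable {q N : ℕ}

/-- A trace-`2` element of `Γ₀(N)[1/q]` has a `q`-power power in the integral part `Γ₀(N)`. -/
theorem exists_pow_mem_Gam1 {γ : SL2Q} (hγ : γ ∈ Gam q N) (htr : γ 0 0 + γ 1 1 = 2) :
    ∃ K : ℕ, γ ^ (q ^ K) ∈ Gam1 N ∧ (γ ^ (q ^ K)) 0 0 + (γ ^ (q ^ K)) 1 1 = 2 := by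
  obtain ⟨hent, y, hy, hc⟩ := hγ
  have h00 : γ 0 0 - 1 ∈ A q := (A q).sub_mem (hent 0 0) (A q).one_mem
  have h11 : γ 1 1 - 1 ∈ A q := (A q).sub_mem (hent 1 1) (A q).one_mem
  obtain ⟨k1, hk1⟩ := exists_int_of_mem_A h00
  obtain ⟨k2, hk2⟩ := exists_int_of_mem_A (hent 0 1)
  obtain ⟨k3, hk3⟩ := exists_int_of_mem_A hy
  obtain ⟨k4, hk4⟩ := exists_int_of_mem_A h11
  set K := k1 + k2 + k3 + k4 with hK
  obtain ⟨m1, hm1⟩ := hk1 K (by omega)
  obtain ⟨m2, hm2⟩ := hk2 K (by omega)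
  obtain ⟨m3, hm3⟩ := hk3 K (by omega)
  obtain ⟨m4, hm4⟩ := hk4 K (by omega)
  obtain ⟨p00, p01, p10, p11⟩ := pow_apply_of_trace_two γ htr (q ^ K)
  push_cast at p00 p01 p10 p11
  refine ⟨K, ⟨?_, m3, ?_⟩, ?_⟩
  · rw [forall_fin2]
    refine ⟨⟨1 + m1, ?_⟩, ⟨m2, ?_⟩, ⟨N * m3, ?_⟩, ⟨1 + m4, ?_⟩⟩
    · rw [p00, hm1]; push_cast; ring
    · rw [p01, hm2]
    · rw [p10, hc]; push_cast; rw [← hm3]; ring
    · rw [p11, hm4]; push_cast; ring
  · rw [p10, hc, ← hm3]; ring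
  · rw [p00, p11]
    linear_combination ((q : ℚ) ^ K) * htr

/-- `-1 ∈ SL₂(ℚ)`. -/
def negOne : SL2Q := ⟨!![-1, 0; 0, -1], by simp [Matrix.det_fin_two]⟩

theorem negOne_apply_00 : negOne 0 0 = -1 := rfl
theorem negOne_apply_01 : negOne 0 1 = 0 := rfl
theorem negOne_apply_10 : negOne 1 0 = 0 := rfl
theorem negOne_apply_11 : negOne 1 1 = -1 := rfl

theorem negOne_mem_Gam1 (N : ℕ) : negOne ∈ Gam1 N := by
  refine ⟨?_, 0, by simp [negOne_apply_10]⟩
  rw [forall_fin2]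
  exact ⟨⟨-1, by simp [negOne_apply_00]⟩, ⟨0, by simp [negOne_apply_01]⟩,
    ⟨0, by simp [negOne_apply_10]⟩, ⟨-1, by simp [negOne_apply_11]⟩⟩

theorem negOne_mul_apply (γ : SL2Q) (i j : Fin 2) : (negOne * γ) i j = - γ i j := by
  rw [mul_apply']
  fin_cases i
  · show negOne 0 0 * γ 0 j + negOne 0 1 * γ 1 j = - γ 0 j
    rw [negOne_apply_00, negOne_apply_01]; ring
  · show negOne 1 0 * γ 0 j + negOne 1 1 * γ 1 j = - γ 1 j
    rw [negOne_apply_10, negOne_apply_11]; ring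

theorem negOne_mul_negOne_mul (γ : SL2Q) : negOne * (negOne * γ) = γ := by
  ext i j
  rw [negOne_mul_apply, negOne_mul_apply, neg_neg]

/-- **Killing all parabolic elements.**  `K` a commutative group on which `x ↦ x^q` is injective
(e.g. `Multiplicative (ZMod p)`, `p ≠ q`), `Φ : Γ₀(N)[1/q] →* K` trivial on the elements of
`Γ₀(N)` of trace `±2`.  Then `Φ` is trivial on every element of `Γ₀(N)[1/q]` of trace `±2`. -/
theorem kills_parabolic {K : Type*} [CommGroup K] (hqK : ∀ x : K, x ^ q = 1 → x = 1)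
    (Φ : ↥(Gam q N) →* K)
    (hpar : ∀ (g : SL2Q) (h : g ∈ Gam1 N), (g 0 0 + g 1 1) ^ 2 = 4 → Φ ⟨g, Gam1_le q N h⟩ = 1)
    (γ : SL2Q) (hγ : γ ∈ Gam q N) (htr : (γ 0 0 + γ 1 1) ^ 2 = 4) : Φ ⟨γ, hγ⟩ = 1 := by
  -- injectivity of all `q`-power maps
  have hqK' : ∀ (k : ℕ) (x : K), x ^ (q ^ k) = 1 → x = 1 := by
    intro k
    induction k with
    | zero => intro x hx; simpa using hx
    | succ k ih =>
      intro x hx
      rw [pow_succ, pow_mul] at hx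
      exact ih x (hqK _ hx)
  -- the trace-2 case
  have key : ∀ (δ : SL2Q) (hδ : δ ∈ Gam q N), δ 0 0 + δ 1 1 = 2 → Φ ⟨δ, hδ⟩ = 1 := by
    intro δ hδ h2
    obtain ⟨k, hmem, htr2⟩ := exists_pow_mem_Gam1 hδ h2
    apply hqK' k
    have h1 := hpar (δ ^ (q ^ k)) hmem (by rw [htr2]; norm_num)
    rw [← map_pow]
    have : (⟨δ, hδ⟩ : ↥(Gam q N)) ^ (q ^ k) = ⟨δ ^ (q ^ k), Gam1_le q N hmem⟩ := by
      apply Subtype.ext
      simp
    rw [this]; exact h1
  have h4 : (γ 0 0 + γ 1 1 - 2) * (γ 0 0 + γ 1 1 + 2) = 0 := by linear_combination htr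
  rcases mul_eq_zero.mp h4 with h | h
  · exact key γ hγ (by linarith)
  · -- trace -2: γ = (-1) * ((-1) * γ)
    have hneg : negOne ∈ Gam q N := Gam1_le q N (negOne_mem_Gam1 N)
    have hδ : negOne * γ ∈ Gam q N := (Gam q N).mul_mem hneg hγ
    have e1 : Φ ⟨negOne, hneg⟩ = 1 := by
      apply hpar negOne (negOne_mem_Gam1 N)
      rw [negOne_apply_00, negOne_apply_11]; norm_num
    have e2 : Φ ⟨negOne * γ, hδ⟩ = 1 := by
      apply key
      rw [negOne_mul_apply, negOne_mul_apply]; linarith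
    have : (⟨γ, hγ⟩ : ↥(Gam q N)) = ⟨negOne, hneg⟩ * ⟨negOne * γ, hδ⟩ := by
      apply Subtype.ext
      show γ = negOne * (negOne * γ)
      rw [negOne_mul_negOne_mul]
    rw [this, map_mul, e1, e2, one_mul]

/-- The conjugates `g u(x) g⁻¹` of upper unipotent matrices have trace `2`; this is the form
consumed by the centrality argument.  Here `g` is ANY element of `SL₂(ℚ)`. -/
theorem trace_conj_eq (g γ : SL2Q) :
    (g * γ * g⁻¹) 0 0 + (g * γ * g⁻¹) 1 1 = γ 0 0 + γ 1 1 := by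
  have hdet := det_eq g
  simp only [mul_apply', inv_apply_00, inv_apply_01, inv_apply_10, inv_apply_11]
  linear_combination (γ 0 0 + γ 1 1) * hdet

/-- Additive form, target `ZMod p` with `p ≠ q` both prime. -/
theorem kills_parabolic_zmod {p : ℕ} [Fact p.Prime] (hq : q.Prime) (hpq : p ≠ q)
    (Φ : ↥(Gam q N) →* Multiplicative (ZMod p))
    (hpar : ∀ (g : SL2Q) (h : g ∈ Gam1 N), (g 0 0 + g 1 1) ^ 2 = 4 → Φ ⟨g, Gam1_le q N h⟩ = 1)
    (γ : SL2Q) (hγ : γ ∈ Gam q N) (htr : (γ 0 0 + γ 1 1) ^ 2 = 4) : Φ ⟨γ, hγ⟩ = 1 := by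
  refine kills_parabolic ?_ Φ hpar γ hγ htr
  intro x hx
  have hx' : q • Multiplicative.toAdd x = 0 := by
    have := congrArg Multiplicative.toAdd hx
    simpa using this
  rw [nsmul_eq_mul] at hx'
  have hq0 : (q : ZMod p) ≠ 0 := by
    intro h0
    rw [ZMod.natCast_eq_zero_iff] at h0
    have hp : p.Prime := Fact.out
    exact hpq ((Nat.prime_dvd_prime_iff_eq hp hq).mp h0)
  have : Multiplicative.toAdd x = 0 := (mul_eq_zero.mp hx').resolve_left hq0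
  exact Multiplicative.toAdd.injective this

end Fermat.Agent.S41.Ihara.KillsUnipotents
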